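import Fermat.Agent.S36R.K0.BlockL

/-!
# S36/StepA : the inertia group at `q` is transitive on the primitive `q`-th roots of unity and on
the `e`-th roots of `q`

* `dvd_card_orbit` : if `v x ^ e = v q` then `e` divides the cardinality of the inertia orbit of `x`;
* `exists_inertia_map_root` : inertia is transitive on the roots of `X ^ e - q`;
* `exists_inertia_map_zeta`, `exists_inertia_zeta_pow` : inertia is transitive on the primitive
  `q`-th roots of unity.
-/

set_option autoImplicit false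

namespace Fermat.Agent.S36.StepA

open Fermat.Agent.PT.Local Fermat.Agent.S36R.K0L

local notation "Kbar" => AlgebraicClosure ℚ

variable (A : ValuationSubring (AlgebraicClosure ℚ)) {q : ℕ} (hq : q.Prime)
  (hA : A.LiesOverPrime q)

include hq hA

theorem InertiaTrans_v_q_lt_one : A.valuation (q : Kbar) < 1 := v_ell_lt_one ⟨A, q, hq, hA⟩

theorem InertiaTrans_v_q_ne_zero : A.valuation (q : Kbar) ≠ 0 := v_ell_ne_zero ⟨A, q, hq, hA⟩

/-- (1) if `v x ^ e = v q`, then `e` divides the cardinality of the inertia orbit of `x`. -/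
theorem dvd_card_orbit {x : Kbar} {e : ℕ} (he : 0 < e)
    (hx : A.valuation x ^ e = A.valuation (q : Kbar)) (S : Finset Kbar)
    (hS : ∀ y, y ∈ S ↔ ∃ τ ∈ A.inertiaSubgroupIn ℚ, τ x = y) : e ∣ S.card := by
  classical
  have hvq0 := InertiaTrans_v_q_ne_zero A hq hA
  have hvq1 := InertiaTrans_v_q_lt_one A hq hA
  have hvx0 : A.valuation x ≠ 0 := by
    intro h
    rw [h, zero_pow he.ne'] at hx
    exact hvq0 hx.symm
  have hvx1 : A.valuation x ≠ 1 := by
    intro h
    rw [h, one_pow] at hx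
    exact hvq1.ne hx.symm
  have hx0 : x ≠ 0 := (Valuation.ne_zero_iff _).1 hvx0
  -- the product over the orbit
  have himage : ∀ τ ∈ A.inertiaSubgroupIn ℚ, S.image (fun y => τ y) = S := by
    intro τ hτ
    ext z
    rw [Finset.mem_image]
    constructor
    · rintro ⟨y, hy, rfl⟩
      obtain ⟨τ', hτ', rfl⟩ := (hS y).1 hy
      exact (hS _).2 ⟨τ * τ', mul_mem hτ hτ', rfl⟩
    · intro hz
      obtain ⟨τ', hτ', rfl⟩ := (hS z).1 hz
      refine ⟨(τ⁻¹ * τ') x, (hS _).2 ⟨τ⁻¹ * τ', mul_mem (inv_mem hτ) hτ', rfl⟩, ?_⟩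
      rw [← AlgEquiv.mul_apply, mul_inv_cancel_left]
  have hfix : (∏ y ∈ S, y) ∈ IntermediateField.fixedField (A.inertiaSubgroupIn ℚ) := by
    rw [IntermediateField.mem_fixedField_iff]
    intro τ hτ
    rw [map_prod]
    conv_rhs => rw [← himage τ hτ]
    rw [Finset.prod_image (fun a _ b _ h => τ.injective h)]
  have hne : (∏ y ∈ S, y) ≠ 0 := by
    rw [Finset.prod_ne_zero_iff]
    intro y hy
    obtain ⟨τ, -, rfl⟩ := (hS y).1 hy
    exact (map_ne_zero τ).2 hx0
  obtain ⟨n, hn⟩ := exists_zpow' A hq hA hfix hne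
  have hv : A.valuation (∏ y ∈ S, y) = A.valuation x ^ S.card := by
    rw [map_prod, Finset.prod_congr rfl (g := fun _ => A.valuation x), Finset.prod_const]
    intro y hy
    obtain ⟨τ, hτ, rfl⟩ := (hS y).1 hy
    exact inertia_valuation A hq hA hτ x
  rw [hv, ← hx, ← zpow_natCast, ← zpow_natCast, ← zpow_mul] at hn
  have h := zpow_right_injective₀ (zero_lt_iff.2 hvx0) hvx1 hn
  have h2 : (e : ℤ) ∣ (S.card : ℤ) := ⟨n, h⟩
  exact_mod_cast h2

/-- an orbit contained in a set with at most `e` elements is the whole set. -/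
theorem InertiaTrans_orbit_eq {x : Kbar} {e : ℕ} (he : 0 < e)
    (hx : A.valuation x ^ e = A.valuation (q : Kbar)) (T : Finset Kbar) (hT : T.card ≤ e)
    (hxT : ∀ τ ∈ A.inertiaSubgroupIn ℚ, τ x ∈ T) {y : Kbar} (hy : y ∈ T) :
    ∃ τ ∈ A.inertiaSubgroupIn ℚ, τ x = y := by
  classical
  set S : Finset Kbar := T.filter (fun y => ∃ τ ∈ A.inertiaSubgroupIn ℚ, τ x = y) with hSdef
  have hS : ∀ y, y ∈ S ↔ ∃ τ ∈ A.inertiaSubgroupIn ℚ, τ x = y := by
    intro y
    rw [hSdef, Finset.mem_filter]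
    constructor
    · exact fun h => h.2
    · rintro ⟨τ, hτ, rfl⟩
      exact ⟨hxT τ hτ, τ, hτ, rfl⟩
  have hdvd := dvd_card_orbit A hq hA he hx S hS
  have hxS : x ∈ S := (hS x).2 ⟨1, one_mem _, rfl⟩
  have hpos : 0 < S.card := Finset.card_pos.2 ⟨x, hxS⟩
  have hle : e ≤ S.card := Nat.le_of_dvd hpos hdvd
  have hST : S = T := Finset.eq_of_subset_of_card_le (Finset.filter_subset _ _) (hT.trans hle)
  exact (hS y).1 (hST ▸ hy)

/-- (2) inertia is transitive on the `e`-th roots of `q`. -/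
theorem exists_inertia_map_root {e : ℕ} (he : 0 < e) {ϖ ϖ' : Kbar} (h : ϖ ^ e = q)
    (h' : ϖ' ^ e = q) : ∃ τ ∈ A.inertiaSubgroupIn ℚ, τ ϖ = ϖ' := by
  classical
  refine InertiaTrans_orbit_eq A hq hA he (by rw [← map_pow, h])
    (Polynomial.nthRoots e (q : Kbar)).toFinset
    ((Multiset.toFinset_card_le _).trans (Polynomial.card_nthRoots e _)) ?_ ?_
  · intro τ _
    rw [Multiset.mem_toFinset, Polynomial.mem_nthRoots he, ← map_pow, h, map_natCast]
  · rw [Multiset.mem_toFinset, Polynomial.mem_nthRoots he, h']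

omit hq hA in
theorem InertiaTrans_v_one_sub_le {n : ℕ} (hn : 0 < n) {ζ μ : Kbar} (hζ : IsPrimitiveRoot ζ n)
    (hμ : μ ^ n = 1) : A.valuation (1 - μ) ≤ A.valuation (1 - ζ) := by
  have : NeZero n := ⟨hn.ne'⟩
  obtain ⟨i, -, rfl⟩ := hζ.eq_pow_of_pow_eq_one hμ
  have hvζ : A.valuation ζ = 1 := by
    have h : A.valuation ζ ^ n = 1 := by rw [← map_pow, hζ.pow_eq_one, map_one]
    exact (pow_eq_one_iff_of_nonneg zero_le hn.ne').1 h
  have hζA : ζ ∈ A := (A.valuation_le_one_iff ζ).1 hvζ.le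
  have hsum : (∑ j ∈ Finset.range i, ζ ^ j) ∈ A := sum_mem fun j _ => pow_mem hζA j
  rw [← geom_sum_mul_neg, map_mul]
  calc A.valuation (∑ j ∈ Finset.range i, ζ ^ j) * A.valuation (1 - ζ)
      ≤ 1 * A.valuation (1 - ζ) := mul_le_mul_left ((A.valuation_le_one_iff _).2 hsum) _
    _ = _ := one_mul _

omit hA in
/-- `v (1 - ζ) ^ (q - 1) = v q`. -/
theorem InertiaTrans_v_one_sub_zeta {ζ : Kbar} (hζ : IsPrimitiveRoot ζ q) :
    A.valuation (1 - ζ) ^ (q - 1) = A.valuation (q : Kbar) := by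
  have : Fact q.Prime := ⟨hq⟩
  have h1 : (q : Kbar) = ∏ μ ∈ primitiveRoots q Kbar, (1 - μ) := by
    have h2 := Polynomial.eval_one_cyclotomic_prime (R := Kbar) (p := q)
    rw [Polynomial.cyclotomic_eq_prod_X_sub_primitiveRoots hζ, Polynomial.eval_prod] at h2
    rw [← h2]
    exact Finset.prod_congr rfl fun μ _ => by simp
  rw [h1, map_prod, Finset.prod_congr rfl (g := fun _ => A.valuation (1 - ζ)), Finset.prod_const,
    hζ.card_primitiveRoots, Nat.totient_prime hq]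
  intro μ hμ
  have hμ' : IsPrimitiveRoot μ q := (mem_primitiveRoots hq.pos).1 hμ
  exact le_antisymm (InertiaTrans_v_one_sub_le A hq.pos hζ hμ'.pow_eq_one)
    (InertiaTrans_v_one_sub_le A hq.pos hμ' hζ.pow_eq_one)

/-- (3) inertia is transitive on the primitive `q`-th roots of unity. -/
theorem exists_inertia_map_zeta {ζ ζ' : Kbar} (hζ : IsPrimitiveRoot ζ q)
    (hζ' : IsPrimitiveRoot ζ' q) : ∃ τ ∈ A.inertiaSubgroupIn ℚ, τ ζ = ζ' := by
  classical
  have he : 0 < q - 1 := by have := hq.two_le; omega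
  obtain ⟨τ, hτ, h⟩ := InertiaTrans_orbit_eq A hq hA he (InertiaTrans_v_one_sub_zeta A hq hζ)
    ((primitiveRoots q Kbar).image fun μ => 1 - μ)
    (Finset.card_image_le.trans (by rw [hζ.card_primitiveRoots, Nat.totient_prime hq]))
    (fun τ _ => Finset.mem_image.2 ⟨τ ζ, (mem_primitiveRoots hq.pos).2
      (hζ.map_of_injective τ.injective), by rw [map_sub, map_one]⟩)
    (y := 1 - ζ') (Finset.mem_image.2 ⟨ζ', (mem_primitiveRoots hq.pos).2 hζ', rfl⟩)
  refine ⟨τ, hτ, ?_⟩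
  rw [map_sub, map_one] at h
  exact sub_right_injective h

/-- (4) -/
theorem exists_inertia_zeta_pow {ζ : Kbar} (hζ : IsPrimitiveRoot ζ q) {i : ℕ} (hi : 0 < i)
    (hi' : i < q) : ∃ τ ∈ A.inertiaSubgroupIn ℚ, τ ζ = ζ ^ i :=
  exists_inertia_map_zeta A hq hA hζ (hζ.pow_of_coprime i
    ((Nat.Prime.coprime_iff_not_dvd hq).2 (Nat.not_dvd_of_pos_of_lt hi hi')).symm)

end Fermat.Agent.S36.StepA
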