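import Fermat.Agent.S36.StepA.HorConc
import Fermat.Agent.S36.StepA.InertiaTrans
import Fermat.Agent.S36.E.Contract
import Fermat.Agent.S36R.K0.BlockL

/-!
# S36, STEP-A : the hypothesis `hhor` of `stepA_of_EData` from an `HInput` at the concrete level
-/

set_option autoImplicit false

noncomputable section

namespace Fermat.Agent.S36.StepA

open AlgebraicCurve ModularCurve Fermat.Agent.S24 Fermat.Agent.Lib.RR Fermat.Agent.GAL.RED
  Fermat.Agent.S36.Val Fermat.Agent.S36.Geo IntermediateField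

variable {M N q : ℕ} [NeZero M] [Algebra (FN M) (FN N)] [IsScalarTower Kbar (FN M) (FN N)]
  {k Eb : Type*} [Field k] [Field Eb] [Algebra k Eb] [Lib.RR.IsFF k Eb] [IsAlgClosed k]
  {R : RedData Kbar (FN M) k Eb} {r : Place Kbar (FN M) → Place k Eb} {e : Place k Eb}
  {ϖ : Kbar} {x : FN M} {g rr ss : ℕ → FN M} {c : Kbar} {x₀ x₂ : FN N}

/-- **`hhor`** : the residue field of `H_e` is Galois of degree `q + 1` over `k(t)`, `t = ā / b̄`, and the Galois group is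
induced by the inertia group. -/
theorem hhor_of_HInput (hq : q.Prime) (hA : R.A.LiesOverPrime q)
    (hcomm : ∀ (τ : Kbar ≃ₐ[ℚ] Kbar) (f : FN M),
      E.gal N τ • algebraMap (FN M) (FN N) f = algebraMap (FN M) (FN N) (E.gal M τ • f))
    (h : HInput R r e q ϖ x g rr ss c x₀ x₂) (hr : IsRedMap R r) (hC : R.IsCartesian)
    (V : ValOver R.A (FN N)) (hV : IsHVal R r e q ϖ x V)
    (hdisc : ∀ τ ∈ R.A.inertiaSubgroupIn ℚ, ∀ f, E.gal M τ • f ∈ discRing R r e ↔ f ∈ discRing R r e)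
    (hx : ∀ τ ∈ R.A.inertiaSubgroupIn ℚ, E.gal M τ • x = x)
    (hx₀ : ∀ τ ∈ R.A.inertiaSubgroupIn ℚ, E.gal N τ • x₀ = x₀)
    (hx₂ : ∀ τ ∈ R.A.inertiaSubgroupIn ℚ, E.gal N τ • x₂ = x₂) :
    ∃ t : V.Res, Transcendental (E.kk R.A) t ∧
      ∃ (_ : FiniteDimensional (E.kk R.A)⟮t⟯ V.Res) (_ : IsGalois (E.kk R.A)⟮t⟯ V.Res),
        Module.finrank (E.kk R.A)⟮t⟯ V.Res = q + 1 ∧
        ∀ γ : V.Res ≃ₐ[(E.kk R.A)⟮t⟯] V.Res, ∃ τ ∈ R.A.inertiaSubgroupIn ℚ,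
          ∀ y ∈ V.redData.O, V.redData.red (E.gal N τ • y) = γ (V.redData.red y) := by
  have : Fact q.Prime := ⟨hq⟩
  have : CharP (IsLocalRing.ResidueField ↥R.A) q := Fermat.Agent.GAL.Hecke.charP_residueField R.A hq hA
  obtain ⟨t, ht, hfd, hgal, hfr, hγ⟩ := HInput_galois_induced h hr hC V hV
    (fun σ => ∃ τ ∈ R.A.inertiaSubgroupIn ℚ, σ = SemilinearAut.toRingAut (E.gal N τ)) (by
      intro ζ hζ
      have hϖ' : (ζ * ϖ) ^ (q + 1) = (q : Kbar) := by rw [mul_pow, hζ, one_mul, h.ϖ_pow]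
      obtain ⟨τ, hτ, hτϖ⟩ := exists_inertia_map_root R.A hq hA (Nat.succ_pos q) h.ϖ_pow hϖ'
      refine ⟨SemilinearAut.toRingAut (E.gal N τ), SemilinearAut.toRingAut (E.gal M τ),
        τ.toRingEquiv, ⟨τ, hτ, rfl⟩, ?_, ?_, ?_, ?_, ?_, ?_, hτϖ, ?_, ?_⟩
      · exact fun a => SemilinearAut.commutes (E.gal N τ) a
      · exact fun f => hcomm τ f
      · exact fun a => Fermat.Agent.S36R.K0L.inertia_map_mem_iff R.A hq hA hτ a
      · exact fun a ha => Fermat.Agent.S36R.K0L.inertia_sub_mem_nonunits R.A hq hA hτ ha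
      · exact fun f => hdisc τ hτ f
      · exact hx τ hτ
      · exact hx₀ τ hτ
      · exact hx₂ τ hτ)
  refine ⟨t, ht, hfd, hgal, hfr, fun γ => ?_⟩
  obtain ⟨σ, ⟨τ, hτ, rfl⟩, h1⟩ := hγ γ
  exact ⟨τ, hτ, h1⟩

end Fermat.Agent.S36.StepA
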