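import Fermat.Agent.DR.Conc.Series
import Fermat.Agent.DR.Conc.Galois
import Fermat.Agent.DR.Conc.Normalise
import Fermat.Agent.GAL.Hecke.SeriesFrob
import Fermat.Agent.GAL.Hecke.SeriesRed

/-!
# S36/StepA : Gauss calculus on `Kbar((t))` without residue fields

`A` a valuation subring of `Kbar`.  For a series `s ∈ Kbar((t))`:
* `Red A s r`    : `s` is Gauss integral with reduction `r ∈ k((t))`;
* `IsOne A s`    : `s` is a Gauss `1`-unit (`s ∈ gRing A`, `gRes s = 1`);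
* `Near1 A s`    : `s = const * (1-unit)`;
* `Normable A s` : `s = const * (Gauss unit)`.
`Near1`, `Normable` define subgroups of `Kbar((t))ˣ`, stable under `t ↦ ζ t`, `t ↦ t^d` and the
decomposition group.  Modulo `Near1`: `s(ζ t) ≈ s(t)` (`ζ^q = 1`, `q` the residue characteristic),
`τ s ≈ s` (`τ` in the inertia group), `(σ s)(t^q) ≈ s(t)^q` (`σ` a Frobenius element).
-/

set_option autoImplicit false

noncomputable section

namespace Fermat.Agent.S36.StepA

open ModularCurve Fermat.Agent.S24 Fermat.Agent.GAL Fermat.Agent.GAL.Gauss Fermat.Agent.DR.Conc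

variable (A : ValuationSubring Kbar)

/-- `s` is Gauss integral with reduction `r`. -/
def Red (s : LaurentSeries Kbar) (r : LaurentSeries (IsLocalRing.ResidueField ↥A)) : Prop :=
  ∃ h : s ∈ gRing A, gRes A ⟨s, h⟩ = r

/-- Gauss `1`-units. -/
def IsOne (s : LaurentSeries Kbar) : Prop := ∃ h : s ∈ gRing A, gRes A ⟨s, h⟩ = 1

/-- constant times a Gauss `1`-unit. -/
def Near1 (s : LaurentSeries Kbar) : Prop := ∃ c : Kbar, c ≠ 0 ∧ IsOne A (HahnSeries.C c * s)

/-- constant times a Gauss unit. -/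
def Normable (s : LaurentSeries Kbar) : Prop :=
  ∃ c : Kbar, c ≠ 0 ∧ ∃ h : HahnSeries.C c * s ∈ gRing A, gRes A ⟨_, h⟩ ≠ 0

variable {A}

/-! ### `Red` -/

section Red

variable {s t : LaurentSeries Kbar} {r r' : LaurentSeries (IsLocalRing.ResidueField ↥A)}

theorem Red.unique (h : Red A s r) (h' : Red A s r') : r = r' := by
  obtain ⟨_, rfl⟩ := h
  obtain ⟨_, rfl⟩ := h'
  rfl

theorem Red.one : Red A 1 1 := ⟨(gRing A).one_mem, map_one _⟩

theorem Red.mul (hs : Red A s r) (ht : Red A t r') : Red A (s * t) (r * r') := by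
  obtain ⟨h, rfl⟩ := hs
  obtain ⟨h', rfl⟩ := ht
  refine ⟨mul_mem h h', ?_⟩
  rw [← map_mul]
  exact congrArg _ (Subtype.ext rfl)

theorem Red.pow (hs : Red A s r) (n : ℕ) : Red A (s ^ n) (r ^ n) := by
  obtain ⟨h, rfl⟩ := hs
  refine ⟨pow_mem h n, ?_⟩
  rw [← map_pow]
  exact congrArg _ (Subtype.ext rfl)

theorem Red.inv (hs : Red A s r) (hr : r ≠ 0) : Red A s⁻¹ r⁻¹ := by
  obtain ⟨h, rfl⟩ := hs
  exact ⟨inv_mem_gRing_of_gRes_ne_zero A ⟨s, h⟩ hr, gRes_inv A ⟨s, h⟩ _⟩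

theorem Red.div (hs : Red A s r) (ht : Red A t r') (hr : r' ≠ 0) : Red A (s / t) (r / r') := by
  rw [div_eq_mul_inv, div_eq_mul_inv]
  exact hs.mul (ht.inv hr)

theorem Red.ne_zero (hs : Red A s r) (hr : r ≠ 0) : s ≠ 0 := by
  rintro rfl
  obtain ⟨h, rfl⟩ := hs
  exact hr (map_zero (gRes A))

theorem red_C {c : Kbar} (hc : c ∈ A) :
    Red A (HahnSeries.C c) (HahnSeries.C (IsLocalRing.residue ↥A ⟨c, hc⟩)) :=
  ⟨(C_mem_gRing_iff A c).2 hc, gRes_C A ⟨c, hc⟩ _⟩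

theorem red_iA (z : LaurentSeries ↥A) : Red A (iA A z) (pA A z) := ⟨iA_mem_gRing A z, gRes_iA A z⟩

theorem Red.qExpand (hs : Red A s r) (d : ℕ) [NeZero d] :
    Red A (qExpand Kbar d s) (qExpand _ d r) := by
  obtain ⟨h, rfl⟩ := hs
  exact ⟨qExpand_mem_gRing A d h, gRes_qExpand A d h⟩

theorem Red.coeffMap (hs : Red A s r) (σ : A.decompositionSubgroup ℚ) :
    Red A (coeffMap (((σ : Kbar ≃ₐ[ℚ] Kbar)) : Kbar →+* Kbar) s)
      (coeffMap ((barAut A σ : _ ≃+* _) : _ →+* _) r) := by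
  obtain ⟨h, rfl⟩ := hs
  exact ⟨coeffMap_mem_gRing A _ (Galois_mem A σ) _ (Galois_residue A σ) h,
    gRes_coeffMap A _ (Galois_mem A σ) _ (Galois_residue A σ) h⟩

/-- if `C a * s` and `s` are both Gauss integral with nonzero reduction, then `a` is a unit. -/
theorem Red.const_mem (hs : Red A s r) (hr : r ≠ 0) {a : Kbar}
    (h : HahnSeries.C a * s ∈ gRing A) : a ∈ A := by
  obtain ⟨h', rfl⟩ := hs
  exact (C_mul_unit_mem_iff A a ⟨s, h'⟩ hr).1 h

end Red

theorem C_ne_zero' {c : Kbar} (hc : c ≠ 0) : (HahnSeries.C c : LaurentSeries Kbar) ≠ 0 := by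
  rw [Ne, map_eq_zero]; exact hc

theorem twist_C (ζ : Kbar) (hζ0 : ζ ≠ 0) (c : Kbar) :
    Fermat.Agent.S24.twist ζ hζ0 (HahnSeries.C c) = HahnSeries.C c := by
  ext n
  rw [twist_coeff, HahnSeries.C_apply, HahnSeries.coeff_single]
  split_ifs with h
  · subst h; simp
  · simp

theorem coeffMap_C' (σ : Kbar →+* Kbar) (c : Kbar) :
    coeffMap σ (HahnSeries.C c) = HahnSeries.C (σ c) := by
  rw [HahnSeries.C_apply, HahnSeries.C_apply, coeffMap_single]

/-! ### group structure -/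

theorem isOne_iff {s : LaurentSeries Kbar} : IsOne A s ↔ Red A s 1 := Iff.rfl

theorem normable_iff {s : LaurentSeries Kbar} :
    Normable A s ↔ ∃ c : Kbar, c ≠ 0 ∧ ∃ r, r ≠ 0 ∧ Red A (HahnSeries.C c * s) r :=
  ⟨fun ⟨c, hc, h, hr⟩ => ⟨c, hc, _, hr, h, rfl⟩, fun ⟨c, hc, _, hr, h, e⟩ => ⟨c, hc, h, e ▸ hr⟩⟩

/-- the form used by `S36/Geo/GEmb`. -/
theorem normable_iff' {s : LaurentSeries Kbar} :
    Normable A s ↔ ∃ (c : Kbar) (u : ↥(gRing A)), c ≠ 0 ∧
      s = HahnSeries.C c * (u : LaurentSeries Kbar) ∧ gRes A u ≠ 0 := by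
  constructor
  · rintro ⟨c, hc, h, hr⟩
    refine ⟨c⁻¹, ⟨_, h⟩, inv_ne_zero hc, ?_, hr⟩
    rw [← mul_assoc, ← map_mul, inv_mul_cancel₀ hc, map_one, one_mul]
  · rintro ⟨c, u, hc, rfl, hr⟩
    have e : (HahnSeries.C c⁻¹ : LaurentSeries Kbar) *
        (HahnSeries.C c * (u : LaurentSeries Kbar)) = (u : LaurentSeries Kbar) := by
      rw [← mul_assoc, ← map_mul, inv_mul_cancel₀ hc, map_one, one_mul]
    have hm : (HahnSeries.C c⁻¹ : LaurentSeries Kbar) *
        (HahnSeries.C c * (u : LaurentSeries Kbar)) ∈ gRing A := by rw [e]; exact u.2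
    refine ⟨c⁻¹, inv_ne_zero hc, hm, ?_⟩
    have e' : (⟨_, hm⟩ : ↥(gRing A)) = u := Subtype.ext e
    rw [e']
    exact hr

theorem IsOne.one : IsOne A 1 := Red.one

theorem IsOne.mul {s t : LaurentSeries Kbar} (hs : IsOne A s) (ht : IsOne A t) :
    IsOne A (s * t) := by
  have := Red.mul hs ht
  rwa [mul_one] at this

theorem IsOne.inv {s : LaurentSeries Kbar} (hs : IsOne A s) : IsOne A s⁻¹ := by
  have := Red.inv hs one_ne_zero
  rwa [inv_one] at this

theorem IsOne.near1 {s : LaurentSeries Kbar} (hs : IsOne A s) : Near1 A s :=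
  ⟨1, one_ne_zero, by rwa [map_one, one_mul]⟩

theorem Near1.ne_zero {s : LaurentSeries Kbar} (hs : Near1 A s) : s ≠ 0 := by
  obtain ⟨c, -, h⟩ := hs
  exact right_ne_zero_of_mul (Red.ne_zero h one_ne_zero)

theorem Near1.one : Near1 A 1 := IsOne.one.near1

theorem near1_C {c : Kbar} (hc : c ≠ 0) : Near1 A (HahnSeries.C c) :=
  ⟨c⁻¹, inv_ne_zero hc, by rw [← map_mul, inv_mul_cancel₀ hc, map_one]; exact IsOne.one⟩

theorem Near1.mul {s t : LaurentSeries Kbar} (hs : Near1 A s) (ht : Near1 A t) :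
    Near1 A (s * t) := by
  obtain ⟨c, hc, h⟩ := hs
  obtain ⟨c', hc', h'⟩ := ht
  refine ⟨c * c', mul_ne_zero hc hc', ?_⟩
  have := h.mul h'
  rwa [mul_mul_mul_comm, ← map_mul] at this

theorem Near1.inv {s : LaurentSeries Kbar} (hs : Near1 A s) : Near1 A s⁻¹ := by
  obtain ⟨c, hc, h⟩ := hs
  refine ⟨c⁻¹, inv_ne_zero hc, ?_⟩
  have := h.inv
  rwa [mul_inv, ← map_inv₀] at this

theorem Near1.div {s t : LaurentSeries Kbar} (hs : Near1 A s) (ht : Near1 A t) :
    Near1 A (s / t) := by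
  rw [div_eq_mul_inv]
  exact hs.mul ht.inv

theorem Near1.pow {s : LaurentSeries Kbar} (hs : Near1 A s) (n : ℕ) : Near1 A (s ^ n) := by
  induction n with
  | zero => rw [pow_zero]; exact Near1.one
  | succ n ih => rw [pow_succ]; exact ih.mul hs

theorem Near1.zpow {s : LaurentSeries Kbar} (hs : Near1 A s) (n : ℤ) : Near1 A (s ^ n) := by
  cases n with
  | ofNat n => rw [Int.ofNat_eq_natCast, zpow_natCast]; exact hs.pow n
  | negSucc n => rw [zpow_negSucc]; exact (hs.pow _).inv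

theorem Near1.prod {ι : Type*} (S : Finset ι) (f : ι → LaurentSeries Kbar)
    (h : ∀ i ∈ S, Near1 A (f i)) : Near1 A (∏ i ∈ S, f i) := by
  classical
  induction S using Finset.induction_on with
  | empty => rw [Finset.prod_empty]; exact Near1.one
  | insert a S ha ih =>
    rw [Finset.prod_insert ha]
    exact (h a (Finset.mem_insert_self a S)).mul
      (ih fun i hi => h i (Finset.mem_insert_of_mem hi))

/-- `≈` is transitive. -/
theorem Near1.trans {s t u : LaurentSeries Kbar} (h : Near1 A (s / t)) (h' : Near1 A (t / u)) :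
    Near1 A (s / u) := by
  have ht : t ≠ 0 := fun h0 => h'.ne_zero (by rw [h0, zero_div])
  have := h.mul h'
  rwa [div_mul_div_cancel₀ ht] at this

theorem Near1.symm {s t : LaurentSeries Kbar} (h : Near1 A (s / t)) : Near1 A (t / s) := by
  have := h.inv
  rwa [inv_div] at this

theorem Near1.normable {s : LaurentSeries Kbar} (hs : Near1 A s) : Normable A s := by
  obtain ⟨c, hc, h, e⟩ := hs
  exact ⟨c, hc, h, by rw [e]; exact one_ne_zero⟩

theorem Normable.ne_zero {s : LaurentSeries Kbar} (hs : Normable A s) : s ≠ 0 := by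
  obtain ⟨c, -, r, hr, h⟩ := normable_iff.1 hs
  exact right_ne_zero_of_mul (h.ne_zero hr)

theorem Normable.mul {s t : LaurentSeries Kbar} (hs : Normable A s) (ht : Normable A t) :
    Normable A (s * t) := by
  obtain ⟨c, hc, r, hr, h⟩ := normable_iff.1 hs
  obtain ⟨c', hc', r', hr', h'⟩ := normable_iff.1 ht
  refine normable_iff.2 ⟨c * c', mul_ne_zero hc hc', r * r', mul_ne_zero hr hr', ?_⟩
  have := h.mul h'
  rwa [mul_mul_mul_comm, ← map_mul] at this

theorem Normable.inv {s : LaurentSeries Kbar} (hs : Normable A s) : Normable A s⁻¹ := by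
  obtain ⟨c, hc, r, hr, h⟩ := normable_iff.1 hs
  refine normable_iff.2 ⟨c⁻¹, inv_ne_zero hc, r⁻¹, inv_ne_zero hr, ?_⟩
  have := h.inv hr
  rwa [mul_inv, ← map_inv₀] at this

theorem Normable.div {s t : LaurentSeries Kbar} (hs : Normable A s) (ht : Normable A t) :
    Normable A (s / t) := by
  rw [div_eq_mul_inv]
  exact hs.mul ht.inv

theorem Normable.pow {s : LaurentSeries Kbar} (hs : Normable A s) (n : ℕ) :
    Normable A (s ^ n) := by
  induction n with
  | zero => rw [pow_zero]; exact Near1.one.normable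
  | succ n ih => rw [pow_succ]; exact ih.mul hs

/-- an honest `A`-integral series with nonzero reduction. -/
theorem normable_iA {z : LaurentSeries ↥A} (hz : pA A z ≠ 0) : Normable A (iA A z) :=
  normable_iff.2 ⟨1, one_ne_zero, _, hz, by rw [map_one, one_mul]; exact red_iA z⟩

theorem Normable.of_near1_div {s t : LaurentSeries Kbar} (h : Near1 A (s / t))
    (ht : Normable A t) : Normable A s := by
  have := h.normable.mul ht
  rwa [div_mul_cancel₀ _ ht.ne_zero] at this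

/-! ### the operations `t ↦ ζ t`, `t ↦ t ^ d`, coefficientwise Galois action -/

theorem Red.twist_mem {s : LaurentSeries Kbar} {r : LaurentSeries (IsLocalRing.ResidueField ↥A)}
    (hs : Red A s r) (hr : r ≠ 0) {ζ : Kbar} {m : ℕ} (hm : 0 < m) (hζ : ζ ^ m = 1) (hζ0 : ζ ≠ 0) :
    ∃ r', r' ≠ 0 ∧ Red A (Fermat.Agent.S24.twist ζ hζ0 s) r' := by
  obtain ⟨h1, h2⟩ := Normalise_zeta_mem A hm hζ
  obtain ⟨h, rfl⟩ := hs
  have hmem := twist_mem_gRing A hζ0 h1 h2 h
  refine ⟨_, ?_, hmem, rfl⟩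
  intro h0
  -- twist back by `ζ⁻¹`
  have hζi : ζ⁻¹ ^ m = 1 := by rw [inv_pow, hζ, inv_one]
  have hs0 : s ≠ 0 := Red.ne_zero ⟨h, rfl⟩ hr
  -- the inverse of `s` is integral, and so is its twist
  have hinv := inv_mem_gRing_of_gRes_ne_zero A ⟨s, h⟩ hr
  have hmem' := twist_mem_gRing A hζ0 h1 h2 hinv
  have e : (⟨_, hmem⟩ : ↥(gRing A)) * ⟨_, hmem'⟩ = 1 := by
    apply Subtype.ext
    show Fermat.Agent.S24.twist ζ hζ0 s * Fermat.Agent.S24.twist ζ hζ0 s⁻¹ = 1
    rw [← map_mul, mul_inv_cancel₀ hs0, map_one]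
  have := congrArg (gRes A) e
  rw [map_mul, h0, zero_mul, map_one] at this
  exact zero_ne_one this

/-- `ζ` a root of unity. -/
theorem Normable.twist {s : LaurentSeries Kbar} (hs : Normable A s) {ζ : Kbar} {m : ℕ}
    (hm : 0 < m) (hζ : ζ ^ m = 1) (hζ0 : ζ ≠ 0) : Normable A (Fermat.Agent.S24.twist ζ hζ0 s) := by
  obtain ⟨c, hc, r, hr, h⟩ := normable_iff.1 hs
  obtain ⟨r', hr', h'⟩ := h.twist_mem hr hm hζ hζ0
  rw [map_mul, twist_C] at h'
  exact normable_iff.2 ⟨c, hc, r', hr', h'⟩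

theorem Normable.qExpand {s : LaurentSeries Kbar} (hs : Normable A s) (d : ℕ) [NeZero d] :
    Normable A (qExpand Kbar d s) := by
  obtain ⟨c, hc, r, hr, h⟩ := normable_iff.1 hs
  have h' := h.qExpand d
  rw [map_mul, qExpand_C] at h'
  exact normable_iff.2 ⟨c, hc, _, (map_ne_zero_iff _ (qExpand_injective
    (R := IsLocalRing.ResidueField ↥A) (N := d))).mpr hr, h'⟩

theorem Near1.qExpand {s : LaurentSeries Kbar} (hs : Near1 A s) (d : ℕ) [NeZero d] :
    Near1 A (qExpand Kbar d s) := by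
  obtain ⟨c, hc, h⟩ := hs
  have h' := Red.qExpand h d
  rw [map_mul, qExpand_C, map_one] at h'
  exact ⟨c, hc, h'⟩

theorem Normable.coeffMap {s : LaurentSeries Kbar} (hs : Normable A s)
    (σ : A.decompositionSubgroup ℚ) :
    Normable A (coeffMap (((σ : Kbar ≃ₐ[ℚ] Kbar)) : Kbar →+* Kbar) s) := by
  obtain ⟨c, hc, r, hr, h⟩ := normable_iff.1 hs
  have h' := h.coeffMap σ
  rw [map_mul, coeffMap_C'] at h'
  exact normable_iff.2 ⟨_, (map_ne_zero _).2 hc, _, (map_ne_zero _).2 hr, h'⟩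

theorem Near1.coeffMap {s : LaurentSeries Kbar} (hs : Near1 A s)
    (σ : A.decompositionSubgroup ℚ) :
    Near1 A (coeffMap (((σ : Kbar ≃ₐ[ℚ] Kbar)) : Kbar →+* Kbar) s) := by
  obtain ⟨c, hc, h⟩ := hs
  have h' := Red.coeffMap h σ
  rw [map_mul, coeffMap_C', map_one] at h'
  exact ⟨_, (map_ne_zero _).2 hc, h'⟩

/-- (F1) `s(ζ t) ≈ s(t)` for `ζ ^ q = 1`, `q` the residue characteristic. -/
theorem near1_twist_div {q : ℕ} (hq : q.Prime) (hA : A.LiesOverPrime q)
    {s : LaurentSeries Kbar} (hs : Normable A s) {ζ : Kbar} (hζ : ζ ^ q = 1) (hζ0 : ζ ≠ 0) :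
    Near1 A (Fermat.Agent.S24.twist ζ hζ0 s / s) := by
  have : NeZero q := ⟨hq.ne_zero⟩
  obtain ⟨c, hc, r, hr, h, rfl⟩ := normable_iff.1 hs
  obtain ⟨h1, h2⟩ := Normalise_zeta_mem A hq.pos hζ
  have h3 : Red A (Fermat.Agent.S24.twist ζ hζ0 (HahnSeries.C c * s)) (gRes A ⟨_, h⟩) :=
    ⟨twist_mem_gRing A hζ0 h1 h2 h, gRes_twist A hζ0 h1 h2 (Normalise_residue_zeta A q hq hA hζ h1) h⟩
  have h4 := h3.div ⟨h, rfl⟩ hr
  rw [div_self hr, map_mul, twist_C, mul_div_mul_left _ _ (C_ne_zero' hc)] at h4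
  exact IsOne.near1 h4

theorem Near1.twist {q : ℕ} (hq : q.Prime) (hA : A.LiesOverPrime q)
    {s : LaurentSeries Kbar} (hs : Near1 A s) {ζ : Kbar} (hζ : ζ ^ q = 1) (hζ0 : ζ ≠ 0) :
    Near1 A (Fermat.Agent.S24.twist ζ hζ0 s) := by
  have := (near1_twist_div hq hA hs.normable hζ hζ0).mul hs
  rwa [div_mul_cancel₀ _ hs.ne_zero] at this

/-- (F2) `τ s ≈ s` for `τ` in the inertia group. -/
theorem near1_inertia_div {s : LaurentSeries Kbar} (hs : Normable A s)
    (τ : Kbar ≃ₐ[ℚ] Kbar) (hτ : τ ∈ A.inertiaSubgroupIn ℚ) :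
    Near1 A (coeffMap (τ : Kbar →+* Kbar) s / s) := by
  obtain ⟨τ', hτ', rfl⟩ := hτ
  obtain ⟨c, hc, r, hr, h⟩ := normable_iff.1 hs
  have h1 : barAut A τ' = 1 := hτ'
  have h3 := h.coeffMap τ'
  have h5 : coeffMap ((barAut A τ' : _ ≃+* _) : _ →+* _) r = r := by
    rw [h1]; ext n; rfl
  rw [h5] at h3
  have h4 := h3.div h hr
  rw [div_self hr, map_mul, coeffMap_C', mul_div_mul_comm] at h4
  have h6 : Near1 A (HahnSeries.C ((((τ' : Kbar ≃ₐ[ℚ] Kbar)) : Kbar →+* Kbar) c) /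
      HahnSeries.C c) := (near1_C ((map_ne_zero _).2 hc)).div (near1_C hc)
  have h7 := (IsOne.near1 h4).div h6
  rwa [mul_div_cancel_left₀ _ h6.ne_zero] at h7

/-- (F3) `(σ s)(t ^ q) ≈ s(t) ^ q` for a Frobenius element `σ`. -/
theorem near1_frobenius_div {q : ℕ} [NeZero q] (hq : q.Prime) (hA : A.LiesOverPrime q)
    {s : LaurentSeries Kbar} (hs : Normable A s) (σ : Kbar ≃ₐ[ℚ] Kbar)
    (hσ : A.IsFrobeniusAt σ q) :
    Near1 A (qExpand Kbar q (coeffMap (σ : Kbar →+* Kbar) s) / s ^ q) := by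
  have : Fact q.Prime := ⟨hq⟩
  have := Hecke.charP_residueField A hq hA
  obtain ⟨c, hc, r, hr, h⟩ := normable_iff.1 hs
  have h3 := (h.coeffMap ⟨σ, hσ.mem_decompositionSubgroup⟩).qExpand q
  have h5 : coeffMap ((barAut A ⟨σ, hσ.mem_decompositionSubgroup⟩ : _ ≃+* _) : _ →+* _) r =
      coeffMap (frobenius (IsLocalRing.ResidueField ↥A) q) r := by
    ext n
    exact hσ.smul_residue_eq _
  rw [h5, ← Hecke.pow_char_eq_qExpand] at h3
  have h4 := h3.div (h.pow q) (pow_ne_zero _ hr)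
  rw [div_self (pow_ne_zero _ hr), map_mul, map_mul, coeffMap_C', qExpand_C, mul_pow,
    mul_div_mul_comm] at h4
  have h6 : Near1 A (HahnSeries.C (σ c) / HahnSeries.C c ^ q) :=
    (near1_C ((map_ne_zero _).2 hc)).div ((near1_C hc).pow q)
  have h7 := (IsOne.near1 h4).div h6
  convert h7 using 1
  exact (mul_div_cancel_left₀ _ h6.ne_zero).symm

/-- In residue characteristic `q`: `s ^ q ≈ 1 → s ≈ 1`. -/
theorem near1_of_pow_char {q : ℕ} [NeZero q] (hq : q.Prime) (hA : A.LiesOverPrime q)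
    {s : LaurentSeries Kbar} (hs : Normable A s) (h : Near1 A (s ^ q)) : Near1 A s := by
  have : Fact q.Prime := ⟨hq⟩
  have := Hecke.charP_residueField A hq hA
  obtain ⟨c, hc, r, hr, h1⟩ := normable_iff.1 hs
  obtain ⟨c', hc', h2⟩ := h
  -- `C (c^q / c') * (C c' * s^q) = (C c * s)^q`
  have e : HahnSeries.C (c ^ q / c') * (HahnSeries.C c' * s ^ q) = (HahnSeries.C c * s) ^ q := by
    rw [← mul_assoc, ← map_mul, div_mul_cancel₀ _ hc', map_pow, mul_pow]
  have h3 := h1.pow q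
  have ha : c ^ q / c' ∈ A := Red.const_mem h2 one_ne_zero (e ▸ h3.1)
  have h4 := (red_C ha).mul h2
  rw [e, mul_one] at h4
  have h5 := h3.unique h4
  rw [Hecke.pow_char_eq_qExpand] at h5
  -- coefficients
  have h6 : ∀ n : ℤ, n ≠ 0 → r.coeff n = 0 := by
    intro n hn
    have := congrArg (fun x => HahnSeries.coeff x ((q : ℤ) * n)) h5
    simp only [qExpand_coeff_mul, coeffMap_coeff, HahnSeries.C_apply, HahnSeries.coeff_single] at this
    rw [if_neg (mul_ne_zero (Nat.cast_ne_zero.2 hq.ne_zero) hn)] at this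
    exact (map_eq_zero _).1 this
  have h7 : r = HahnSeries.C (r.coeff 0) := by
    ext n
    rw [HahnSeries.C_apply, HahnSeries.coeff_single]
    split_ifs with hn
    · rw [hn]
    · exact h6 n hn
  have h8 : r.coeff 0 ≠ 0 := by
    intro h0
    rw [h0, map_zero] at h7
    exact hr h7
  obtain ⟨a, ha'⟩ := IsLocalRing.residue_surjective (R := ↥A) (r.coeff 0)
  have ha0 : (a : Kbar) ≠ 0 := by
    intro h0
    have : a = 0 := Subtype.ext h0
    rw [this, map_zero] at ha'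
    exact h8 ha'.symm
  have h9 : Red A (HahnSeries.C (a : Kbar)) r := by
    have := red_C (A := A) a.2
    rw [h7, ← ha']
    exact this
  have h10 := h1.div h9 hr
  rw [div_self hr, mul_div_right_comm, ← map_div₀] at h10
  exact ⟨c / a, div_ne_zero hc ha0, h10⟩

/-- **Bezout**: if `s ^ q ≈ t ^ n` with `q`, `n` coprime then `s ≈ (t ^ a * s ^ b) ^ n`, where
`a q + b n = 1`. -/
theorem near1_of_pow {q n : ℕ} (hqn : Nat.Coprime q n) {s t : LaurentSeries Kbar} (hs : s ≠ 0)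
    (ht : t ≠ 0) (h : Near1 A (s ^ q / t ^ n)) :
    ∃ a b : ℤ, Near1 A (s / (t ^ a * s ^ b) ^ n) := by
  refine ⟨Nat.gcdA q n, Nat.gcdB q n, ?_⟩
  have hb := Nat.gcd_eq_gcd_ab q n
  rw [hqn, Nat.cast_one] at hb
  have h1 := h.zpow (Nat.gcdA q n)
  have e : (s ^ q / t ^ n) ^ (Nat.gcdA q n) =
      s / (t ^ (Nat.gcdA q n) * s ^ (Nat.gcdB q n)) ^ n := by
    have e1 : s = s ^ ((q : ℤ) * Nat.gcdA q n) * s ^ ((n : ℤ) * Nat.gcdB q n) := by
      rw [← zpow_add₀ hs, ← hb, zpow_one]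
    rw [div_zpow, mul_pow, ← zpow_natCast, ← zpow_natCast, ← zpow_natCast, ← zpow_natCast,
      ← zpow_mul, ← zpow_mul, ← zpow_mul, ← zpow_mul, eq_div_iff (mul_ne_zero
        (zpow_ne_zero _ ht) (zpow_ne_zero _ hs)), mul_comm (Nat.gcdA q n) (n : ℤ),
      mul_comm (Nat.gcdB q n) (n : ℤ), ← mul_assoc, div_mul_cancel₀ _ (zpow_ne_zero _ ht), ← e1]
  rwa [e] at h1

end Fermat.Agent.S36.StepA
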