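import Fermat.Agent.DR.Interface
import Fermat.Agent.DR.Conc.AL
import Fermat.Agent.GAL.Hecke.NormFormulaCore

/-!
# S36/StepA : the function field of level `M q²` (`q ∤ M`) over the one of level `M q`

`a2 = α`, `b2 = β : FN (M q) → FN (M q q)` (`f(t) ↦ f(t)`, `f(t) ↦ f(t^q)`), `wq` the Atkin-Lehner
involution of level `M q`.
* `IsW2 W`     : `W` is the Atkin-Lehner involution `w_{q²}` of `FN (M q q)`;
* `IsMid ζ ι`  : `ι : FN (M q q) → Kbar((t))` is the expansion at a middle cusp: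
  `(j(t^d), j(t^{q d}), j(t^{q² d})) ↦ (j(t^d), j(t^{q d}), j((ζ t)^d))`, `d ∣ M`;
* degrees, norm formulas, Galois equivariance.
-/

set_option autoImplicit false

noncomputable section

namespace Fermat.Agent.S36.StepA

open AlgebraicCurve ModularCurve Fermat.Agent.S24 Fermat.Agent.GAL Fermat.Agent.GAL.Hecke
  Fermat.Agent.GAL.NormFormula

variable (M q : ℕ) [NeZero M] [NeZero q]

/-- `α : FN (M q) → FN (M q q)`, the inclusion. -/
abbrev a2 : FN (M * q) →ₐ[Kbar] FN (M * q * q) := heckeAlphaBar Kbar (M * q) q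

/-- `β : FN (M q) → FN (M q q)`, `f(t) ↦ f(t^q)`. -/
abbrev b2 : FN (M * q) →ₐ[Kbar] FN (M * q * q) := heckeBetaBar Kbar (M * q) q

/-- The Galois action on the function field of level `N`. -/
abbrev gal (N : ℕ) (σ : Kbar ≃ₐ[ℚ] Kbar) : FN N ≃+* FN N :=
  arithmeticRingAut (modularFunctionFieldFull N) σ

/-- `W` is the Atkin-Lehner involution `w_{q²}`. -/
structure IsW2 (W : FN (M * q * q) ≃ₐ[Kbar] FN (M * q * q)) : Prop where
  alpha : ∀ x : FN (M * q), W (a2 M q x) = b2 M q (DR.wq M q x)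
  beta : ∀ x : FN (M * q), W (b2 M q x) = a2 M q (DR.wq M q x)
  invol : ∀ y : FN (M * q * q), W (W y) = y

/-- `ι` is the expansion at the middle cusp attached to `ζ`. -/
structure IsMid (ζ : Kbar) (hζ0 : ζ ≠ 0) (ι : FN (M * q * q) →+* LaurentSeries Kbar) : Prop where
  alpha : ∀ x : FN (M * q), ι (a2 M q x) = (x : LaurentSeries Kbar)
  beta : ∀ x : FN (M * q), ι (b2 M q x) =
    Fermat.Agent.S24.twist ζ hζ0 ((DR.wq M q x : FN (M * q)) : LaurentSeries Kbar)

variable {M q}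

/-- Two ring homomorphisms out of `FN (M q q)` agreeing on constants, `a2` and `b2` are equal. -/
theorem ringHom_ext2 (hq : q.Prime) {R : Type*} [Field R] (f g : FN (M * q * q) →+* R)
    (hc : ∀ c : Kbar, f (algebraMap Kbar _ c) = g (algebraMap Kbar _ c))
    (hα : ∀ u : FN (M * q), f (a2 M q u) = g (a2 M q u))
    (hβ : ∀ u : FN (M * q), f (b2 M q u) = g (b2 M q u)) : f = g :=
  DR.Conc.algHom_ext_alpha_beta (M * q) q hq f g hc hα hβ

theorem IsMid.map_const {ζ : Kbar} {hζ0 : ζ ≠ 0} {ι : FN (M * q * q) →+* LaurentSeries Kbar}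
    (h : IsMid M q ζ hζ0 ι) (c : Kbar) :
    ι (algebraMap Kbar _ c) = algebraMap Kbar (LaurentSeries Kbar) c := by
  have h1 := h.alpha (algebraMap Kbar _ c)
  rw [AlgHom.commutes] at h1
  exact h1

theorem IsMid.unique (hq : q.Prime) {ζ : Kbar} {hζ0 : ζ ≠ 0}
    {ι ι' : FN (M * q * q) →+* LaurentSeries Kbar}
    (h : IsMid M q ζ hζ0 ι) (h' : IsMid M q ζ hζ0 ι') : ι = ι' :=
  ringHom_ext2 hq ι ι' (fun c => by rw [h.map_const, h'.map_const])
    (fun u => by rw [h.alpha, h'.alpha]) (fun u => by rw [h.beta, h'.beta])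

end Fermat.Agent.S36.StepA
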