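import Fermat.Agent.S36.StepA.Near
import Fermat.Agent.S36.StepA.Defs
import Fermat.Agent.PT.Local.Unif
import Fermat.Agent.GAL.Igusa.LevelDeg

/-!
# S36/StepA : every modular function is a constant times a Gauss unit

A series `s ∈ Kbar((t))` is *tame* if its coefficients lie in a number field and are bounded for `A`.
As `A` is discrete on number fields, a nonzero tame series is a constant times an honest integral
series with nonzero reduction.  Tame series form a ring, containing the constants and the `j(t^d)`,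
stable under `t ↦ ζ t`, `t ↦ t^d`.  Hence every nonzero element of its field of fractions `tameField A`
is `Normable`; `FN N ≤ tameField A` for all `N`, and `ι y ∈ tameField A` for the middle embeddings.
-/

set_option autoImplicit false

noncomputable section

namespace Fermat.Agent.S36.StepA

open ModularCurve Fermat.Agent.S24 Fermat.Agent.GAL Fermat.Agent.GAL.Gauss Fermat.Agent.DR.Conc

variable (A : ValuationSubring Kbar)

/-- the coefficients lie in a number field. -/
def HasNF (s : LaurentSeries Kbar) : Prop :=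
  ∃ L : IntermediateField ℚ Kbar, FiniteDimensional ℚ L ∧ ∀ n, s.coeff n ∈ L

/-- the coefficients are bounded. -/
def IsBdd (s : LaurentSeries Kbar) : Prop := ∃ c : Kbar, c ≠ 0 ∧ ∀ n, c * s.coeff n ∈ A

/-- tame series. -/
def IsTame (s : LaurentSeries Kbar) : Prop := HasNF s ∧ IsBdd A s

variable {A}

/-! ### `HasNF` -/

theorem hasNF_C (c : Kbar) : HasNF (HahnSeries.C c) := by
  refine ⟨IntermediateField.adjoin ℚ {c}, IntermediateField.adjoin.finiteDimensional
    (Algebra.IsAlgebraic.isAlgebraic c).isIntegral, fun n => ?_⟩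
  rw [HahnSeries.C_apply, HahnSeries.coeff_single]
  split_ifs
  · exact IntermediateField.mem_adjoin_simple_self ℚ c
  · exact zero_mem _

theorem HasNF.add {s t : LaurentSeries Kbar} (hs : HasNF s) (ht : HasNF t) : HasNF (s + t) := by
  obtain ⟨L, hL, h⟩ := hs
  obtain ⟨L', hL', h'⟩ := ht
  refine ⟨L ⊔ L', IntermediateField.finiteDimensional_sup L L', fun n => ?_⟩
  rw [HahnSeries.coeff_add]
  exact add_mem ((le_sup_left : L ≤ L ⊔ L') (h n)) ((le_sup_right : L' ≤ L ⊔ L') (h' n))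

theorem HasNF.neg {s : LaurentSeries Kbar} (hs : HasNF s) : HasNF (-s) := by
  obtain ⟨L, hL, h⟩ := hs
  refine ⟨L, hL, fun n => ?_⟩
  rw [HahnSeries.coeff_neg]
  exact neg_mem (h n)

theorem HasNF.mul {s t : LaurentSeries Kbar} (hs : HasNF s) (ht : HasNF t) : HasNF (s * t) := by
  obtain ⟨L, hL, h⟩ := hs
  obtain ⟨L', hL', h'⟩ := ht
  refine ⟨L ⊔ L', IntermediateField.finiteDimensional_sup L L', fun n => ?_⟩
  rw [HahnSeries.coeff_mul]
  exact sum_mem fun ij _ =>
    mul_mem ((le_sup_left : L ≤ L ⊔ L') (h _)) ((le_sup_right : L' ≤ L ⊔ L') (h' _))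

theorem HasNF.twist {s : LaurentSeries Kbar} (hs : HasNF s) (ζ : Kbar) (hζ0 : ζ ≠ 0) :
    HasNF (Fermat.Agent.S24.twist ζ hζ0 s) := by
  obtain ⟨L, hL, h⟩ := hs
  have hL' : FiniteDimensional ℚ (IntermediateField.adjoin ℚ {ζ}) :=
    IntermediateField.adjoin.finiteDimensional (Algebra.IsAlgebraic.isAlgebraic ζ).isIntegral
  refine ⟨L ⊔ IntermediateField.adjoin ℚ {ζ}, IntermediateField.finiteDimensional_sup _ _,
    fun n => ?_⟩
  rw [twist_coeff]
  exact mul_mem (zpow_mem ((le_sup_right : IntermediateField.adjoin ℚ {ζ} ≤ _)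
    (IntermediateField.mem_adjoin_simple_self ℚ ζ)) n)
    ((le_sup_left : L ≤ L ⊔ IntermediateField.adjoin ℚ {ζ}) (h n))

theorem HasNF.qExpand {s : LaurentSeries Kbar} (hs : HasNF s) (d : ℕ) [NeZero d] :
    HasNF (qExpand Kbar d s) := by
  obtain ⟨L, hL, h⟩ := hs
  refine ⟨L, hL, fun n => ?_⟩
  by_cases hn : (d : ℤ) ∣ n
  · obtain ⟨m, rfl⟩ := hn
    rw [qExpand_coeff_mul]
    exact h m
  · rw [qExpand_coeff_of_not_dvd d _ hn]
    exact zero_mem _

/-! ### `IsBdd` -/

theorem isBdd_C (c : Kbar) : IsBdd A (HahnSeries.C c) := by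
  by_cases hc : c = 0
  · refine ⟨1, one_ne_zero, fun n => ?_⟩
    rw [hc, map_zero, HahnSeries.coeff_zero, mul_zero]
    exact A.zero_mem
  · refine ⟨c⁻¹, inv_ne_zero hc, fun n => ?_⟩
    rw [HahnSeries.C_apply, HahnSeries.coeff_single]
    split_ifs
    · rw [inv_mul_cancel₀ hc]; exact A.one_mem
    · rw [mul_zero]; exact A.zero_mem

theorem IsBdd.add {s t : LaurentSeries Kbar} (hs : IsBdd A s) (ht : IsBdd A t) :
    IsBdd A (s + t) := by
  obtain ⟨c, hc, h⟩ := hs
  obtain ⟨c', hc', h'⟩ := ht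
  rcases A.mem_or_inv_mem (c / c') with h1 | h1
  · refine ⟨c, hc, fun n => ?_⟩
    have e : c * (s + t).coeff n = c * s.coeff n + c / c' * (c' * t.coeff n) := by
      rw [HahnSeries.coeff_add]; field_simp
    rw [e]
    exact A.add_mem _ _ (h n) (A.mul_mem _ _ h1 (h' n))
  · refine ⟨c', hc', fun n => ?_⟩
    have e : c' * (s + t).coeff n = (c / c')⁻¹ * (c * s.coeff n) + c' * t.coeff n := by
      rw [HahnSeries.coeff_add]; field_simp
    rw [e]
    exact A.add_mem _ _ (A.mul_mem _ _ h1 (h n)) (h' n)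

theorem IsBdd.neg {s : LaurentSeries Kbar} (hs : IsBdd A s) : IsBdd A (-s) := by
  obtain ⟨c, hc, h⟩ := hs
  refine ⟨c, hc, fun n => ?_⟩
  rw [HahnSeries.coeff_neg, mul_neg]
  exact A.neg_mem _ (h n)

theorem IsBdd.mul {s t : LaurentSeries Kbar} (hs : IsBdd A s) (ht : IsBdd A t) :
    IsBdd A (s * t) := by
  obtain ⟨c, hc, h⟩ := hs
  obtain ⟨c', hc', h'⟩ := ht
  refine ⟨c * c', mul_ne_zero hc hc', fun n => ?_⟩
  rw [HahnSeries.coeff_mul, Finset.mul_sum]
  refine sum_mem fun ij _ => ?_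
  rw [mul_mul_mul_comm]
  exact A.mul_mem _ _ (h _) (h' _)

theorem IsBdd.twist {s : LaurentSeries Kbar} (hs : IsBdd A s) {ζ : Kbar} {m : ℕ}
    (hm : 0 < m) (hζ : ζ ^ m = 1) (hζ0 : ζ ≠ 0) : IsBdd A (Fermat.Agent.S24.twist ζ hζ0 s) := by
  obtain ⟨c, hc, h⟩ := hs
  obtain ⟨h1, h2⟩ := Normalise_zeta_mem A hm hζ
  refine ⟨c, hc, fun n => ?_⟩
  rw [twist_coeff, mul_left_comm]
  refine A.mul_mem _ _ ?_ (h n)
  cases n with
  | ofNat n => rw [Int.ofNat_eq_natCast, zpow_natCast]; exact pow_mem h1 n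
  | negSucc n => rw [zpow_negSucc, ← inv_pow]; exact pow_mem h2 _

theorem IsBdd.qExpand {s : LaurentSeries Kbar} (hs : IsBdd A s) (d : ℕ) [NeZero d] :
    IsBdd A (qExpand Kbar d s) := by
  obtain ⟨c, hc, h⟩ := hs
  refine ⟨c, hc, fun n => ?_⟩
  by_cases hn : (d : ℤ) ∣ n
  · obtain ⟨m, rfl⟩ := hn
    rw [qExpand_coeff_mul]
    exact h m
  · rw [qExpand_coeff_of_not_dvd d _ hn, mul_zero]
    exact A.zero_mem

/-! ### the ring and the field -/

variable (A) in
/-- The ring of tame series. -/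
def tameRing : Subring (LaurentSeries Kbar) where
  carrier := {s | IsTame A s}
  mul_mem' := fun h h' => ⟨h.1.mul h'.1, h.2.mul h'.2⟩
  one_mem' := by
    have : (1 : LaurentSeries Kbar) = HahnSeries.C 1 := (map_one _).symm
    rw [this]
    exact ⟨hasNF_C 1, isBdd_C 1⟩
  add_mem' := fun h h' => ⟨h.1.add h'.1, h.2.add h'.2⟩
  zero_mem' := by
    have : (0 : LaurentSeries Kbar) = HahnSeries.C 0 := (map_zero _).symm
    rw [this]
    exact ⟨hasNF_C 0, isBdd_C 0⟩
  neg_mem' := fun h => ⟨h.1.neg, h.2.neg⟩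

theorem mem_tameRing {s : LaurentSeries Kbar} : s ∈ tameRing A ↔ IsTame A s := Iff.rfl

variable (A) in
/-- The field of fractions of the ring of tame series. -/
def tameField : IntermediateField Kbar (LaurentSeries Kbar) where
  toSubalgebra :=
    { (Subfield.closure (tameRing A : Set (LaurentSeries Kbar))).toSubring with
      algebraMap_mem' := fun c => Subfield.subset_closure (by
        rw [algebraMap_eq_C]
        exact ⟨hasNF_C c, isBdd_C c⟩) }
  inv_mem' := fun _ hx => (Subfield.closure (tameRing A : Set (LaurentSeries Kbar))).inv_mem hx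

theorem mem_tameField {s : LaurentSeries Kbar} :
    s ∈ tameField A ↔ ∃ a, IsTame A a ∧ ∃ b, IsTame A b ∧ a / b = s := by
  have : s ∈ tameField A ↔ s ∈ Subfield.closure (tameRing A : Set (LaurentSeries Kbar)) := Iff.rfl
  rw [this, Subfield.mem_closure_iff, Subring.closure_eq]
  rfl

theorem IsTame.mem_tameField {s : LaurentSeries Kbar} (h : IsTame A s) : s ∈ tameField A :=
  Subfield.subset_closure h

theorem twist_mem_tameField {s : LaurentSeries Kbar} (hs : s ∈ tameField A) {ζ : Kbar} {m : ℕ}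
    (hm : 0 < m) (hζ : ζ ^ m = 1) (hζ0 : ζ ≠ 0) :
    Fermat.Agent.S24.twist ζ hζ0 s ∈ tameField A := by
  obtain ⟨a, ha, b, hb, rfl⟩ := mem_tameField.1 hs
  rw [map_div₀]
  exact mem_tameField.2 ⟨_, ⟨ha.1.twist ζ hζ0, ha.2.twist hm hζ hζ0⟩, _,
    ⟨hb.1.twist ζ hζ0, hb.2.twist hm hζ hζ0⟩, rfl⟩

theorem qExpand_mem_tameField {s : LaurentSeries Kbar} (hs : s ∈ tameField A) (d : ℕ) [NeZero d] :
    qExpand Kbar d s ∈ tameField A := by
  obtain ⟨a, ha, b, hb, rfl⟩ := mem_tameField.1 hs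
  rw [map_div₀]
  exact mem_tameField.2 ⟨_, ⟨ha.1.qExpand d, ha.2.qExpand d⟩, _,
    ⟨hb.1.qExpand d, hb.2.qExpand d⟩, rfl⟩

/-! ### normalisation -/

/-- the series over `A` with the same coefficients. -/
def liftA (s : LaurentSeries Kbar) (h : ∀ n, s.coeff n ∈ A) : LaurentSeries ↥A where
  coeff n := ⟨s.coeff n, h n⟩
  isPWO_support' := by
    have : Function.support (fun n => (⟨s.coeff n, h n⟩ : ↥A)) = s.support := by
      ext n
      simp only [Function.mem_support, HahnSeries.mem_support, ne_eq]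
      rw [not_iff_not]
      exact ⟨fun e => congrArg Subtype.val e, fun e => Subtype.ext e⟩
    rw [this]
    exact s.isPWO_support

theorem iA_liftA (s : LaurentSeries Kbar) (h : ∀ n, s.coeff n ∈ A) : iA A (liftA s h) = s := by
  ext n
  rfl

/-- **Discreteness**: a nonzero tame series is a constant times a Gauss unit. -/
theorem IsTame.normable {q : ℕ} (hq : q.Prime) (hA : A.LiesOverPrime q)
    {s : LaurentSeries Kbar} (hs : IsTame A s) (h0 : s ≠ 0) : Normable A s := by
  obtain ⟨⟨L, hL, hsL⟩, c, hc, hsc⟩ := hs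
  let P : PT.Local.Plc := ⟨A, q, hq, hA⟩
  have hLc : FiniteDimensional ℚ (IntermediateField.adjoin ℚ {c}) :=
    IntermediateField.adjoin.finiteDimensional (Algebra.IsAlgebraic.isAlgebraic c).isIntegral
  have hL' : FiniteDimensional ℚ (L ⊔ IntermediateField.adjoin ℚ {c} : IntermediateField ℚ Kbar) :=
    IntermediateField.finiteDimensional_sup _ _
  obtain ⟨π, -, hU⟩ := PT.Local.exists_unif P (L ⊔ IntermediateField.adjoin ℚ {c})
  have hπ0 : 0 < P.v (π : Kbar) := zero_lt_iff.2 ((Valuation.ne_zero_iff _).2 hU.ne_zero)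
  obtain ⟨-, hπ1, hπ⟩ := hU
  have hmem : ∀ n, c * s.coeff n ∈ PT.Local.lf P (L ⊔ IntermediateField.adjoin ℚ {c}) := fun n =>
    PT.Local.le_lf P _ (mul_mem ((le_sup_right : IntermediateField.adjoin ℚ {c} ≤ _)
      (IntermediateField.mem_adjoin_simple_self ℚ c))
      ((le_sup_left : L ≤ L ⊔ IntermediateField.adjoin ℚ {c}) (hsL n)))
  obtain ⟨n₁, hn₁⟩ : ∃ n, s.coeff n ≠ 0 := by
    by_contra hcon
    exact h0 (HahnSeries.ext (funext fun n => by
      by_contra hn
      exact hcon ⟨n, hn⟩))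
  -- the least exponent
  obtain ⟨k₀, ⟨n₀, hn₀, hk₀⟩, hmin⟩ := Int.exists_least_of_bdd
    (P := fun k : ℤ => ∃ n, s.coeff n ≠ 0 ∧ P.v (c * s.coeff n) = P.v (π : Kbar) ^ k)
    ⟨0, by
      rintro k ⟨n, -, hk⟩
      rw [← zpow_le_one_iff_right_of_lt_one₀ hπ0 hπ1, ← hk]
      exact (A.valuation_le_one_iff _).2 (hsc n)⟩
    (by
      obtain ⟨k, hk⟩ := hπ _ (hmem n₁) (mul_ne_zero hc hn₁)
      exact ⟨k, n₁, hn₁, hk⟩)
  -- all coefficients are divisible by the `n₀`-th one
  have hdiv : ∀ n, (HahnSeries.C (s.coeff n₀)⁻¹ * s).coeff n ∈ A := by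
    intro n
    rw [HahnSeries.C_mul_eq_smul, HahnSeries.coeff_smul, smul_eq_mul]
    by_cases hn : s.coeff n = 0
    · rw [hn, mul_zero]; exact A.zero_mem
    · obtain ⟨k, hk⟩ := hπ _ (hmem n) (mul_ne_zero hc hn)
      have hle := hmin k ⟨n, hn, hk⟩
      have h1 : P.v (c * s.coeff n) ≤ P.v (c * s.coeff n₀) := by
        rw [hk, hk₀]
        exact zpow_le_zpow_right_of_le_one₀ hπ0 hπ1.le hle
      rw [← A.valuation_le_one_iff]
      have e : (s.coeff n₀)⁻¹ * s.coeff n = (c * s.coeff n) / (c * s.coeff n₀) := by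
        field_simp
      rw [e, map_div₀]
      exact div_le_one_of_le₀ h1 zero_le
  refine ⟨(s.coeff n₀)⁻¹, inv_ne_zero hn₀, ?_⟩
  have hred := red_iA (A := A) (liftA _ hdiv)
  rw [iA_liftA] at hred
  obtain ⟨hm, hr⟩ := hred
  refine ⟨hm, ?_⟩
  rw [hr]
  intro hz
  have h2 := congrArg (fun x => HahnSeries.coeff x n₀) hz
  simp only [pA_coeff, HahnSeries.coeff_zero] at h2
  have h3 : (liftA _ hdiv).coeff n₀ = 1 := by
    apply Subtype.ext
    show (HahnSeries.C (s.coeff n₀)⁻¹ * s).coeff n₀ = 1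
    rw [HahnSeries.C_mul_eq_smul, HahnSeries.coeff_smul, smul_eq_mul, inv_mul_cancel₀ hn₀]
  rw [h3, map_one] at h2
  exact one_ne_zero h2

/-- every nonzero element of the tame field is a constant times a Gauss unit. -/
theorem normable_of_mem_tameField {q : ℕ} (hq : q.Prime) (hA : A.LiesOverPrime q)
    {s : LaurentSeries Kbar} (hs : s ∈ tameField A) (h0 : s ≠ 0) : Normable A s := by
  obtain ⟨a, ha, b, hb, rfl⟩ := mem_tameField.1 hs
  have ha0 : a ≠ 0 := fun h => h0 (by rw [h, zero_div])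
  have hb0 : b ≠ 0 := fun h => h0 (by rw [h, div_zero])
  exact (ha.normable hq hA ha0).div (hb.normable hq hA hb0)

/-! ### modular functions -/

theorem isTame_jq : IsTame A (coeffEmb Kbar jq) := by
  constructor
  · refine ⟨⊥, inferInstance, fun n => ?_⟩
    exact IntermediateField.algebraMap_mem _ (jq.coeff n)
  · refine ⟨1, one_ne_zero, fun n => ?_⟩
    rw [Igusa.LevelDeg_coeffEmb_jq, ← iA_jqModC A, one_mul, iA_coeff]
    exact Subtype.mem _

/-- `FN N` consists of fractions of tame series. -/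
theorem FN_le_tameField (N : ℕ) : modularFunctionFieldBar N ≤ tameField A := by
  rw [FNAdjoin.modularFunctionFieldBar_eq_adjoin, IntermediateField.adjoin_le_iff]
  rintro _ ⟨d, hd, -, rfl⟩
  rw [FNAdjoin.coeffEmb_qExpand]
  exact qExpand_mem_tameField isTame_jq.mem_tameField d

theorem coe_mem_tameField {N : ℕ} (y : FN N) : (y : LaurentSeries Kbar) ∈ tameField A :=
  FN_le_tameField N y.2

/-- **Normalisation at `∞`, any level.** -/
theorem normable_coe {q : ℕ} (hq : q.Prime) (hA : A.LiesOverPrime q) {N : ℕ} (y : FN N)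
    (hy : y ≠ 0) : Normable A (y : LaurentSeries Kbar) :=
  normable_of_mem_tameField hq hA (coe_mem_tameField y) fun h => hy (Subtype.ext h)

/-- a ring homomorphism `FN N → Kbar((t))` which maps constants and the `j_d` to the tame field
has values in the tame field. -/
theorem ringHom_mem_tameField {N : ℕ} (φ : FN N →+* LaurentSeries Kbar)
    (hc : ∀ c : Kbar, φ (algebraMap Kbar (FN N) c) ∈ tameField A)
    (hj : ∀ (d : ℕ) [NeZero d] (hd : d ∣ N), φ (FNAdjoin.jd N d hd) ∈ tameField A) (y : FN N) :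
    φ y ∈ tameField A := by
  have hA' : ∀ x ∈ FNAdjoin.A N, φ x ∈ tameField A := by
    intro x hx
    refine FNAdjoin.A_induction (P := fun x => φ x ∈ tameField A) (fun d _ hd => hj d hd) hc ?_ ?_ hx
    · intro x y _ _ hx hy
      rw [map_add]; exact add_mem hx hy
    · intro x y _ _ hx hy
      rw [map_mul]; exact mul_mem hx hy
  obtain ⟨a, ha, s, hs, -, rfl⟩ := FNAdjoin.exists_div N y
  rw [map_div₀]
  exact div_mem (hA' a ha) (hA' s hs)

section Mid

variable {M q : ℕ} [NeZero M] [NeZero q]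

theorem IsMid.mem_tameField (hq : q.Prime) {ζ : Kbar} {hζ0 : ζ ≠ 0} (hζ : ζ ^ q = 1)
    {ι : FN (M * q * q) →+* LaurentSeries Kbar} (h : IsMid M q ζ hζ0 ι) (y : FN (M * q * q)) :
    ι y ∈ tameField A := by
  refine ringHom_mem_tameField ι (fun c => ?_) (fun d _ hd => ?_) y
  · rw [h.map_const]
    exact IntermediateField.algebraMap_mem _ c
  · rcases AtkinLehner.dvd_cases hq hd with h1 | ⟨d', h1, rfl⟩
    · rw [← AtkinLehner.alpha_jd (M := M * q) (ℓ := q) d h1, h.alpha]
      exact coe_mem_tameField _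
    · have : NeZero d' := ⟨fun h0 => by
        subst h0
        exact NeZero.ne (0 * q) (zero_mul q)⟩
      rw [← AtkinLehner.beta_jd (M := M * q) (ℓ := q) d' h1, h.beta]
      exact twist_mem_tameField (coe_mem_tameField _) hq.pos hζ hζ0

/-- **Normalisation at the middle cusps.** -/
theorem IsMid.normable (hq : q.Prime) (hA : A.LiesOverPrime q) {ζ : Kbar} {hζ0 : ζ ≠ 0}
    (hζ : ζ ^ q = 1) {ι : FN (M * q * q) →+* LaurentSeries Kbar} (h : IsMid M q ζ hζ0 ι)
    (y : FN (M * q * q)) (hy : y ≠ 0) : Normable A (ι y) :=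
  normable_of_mem_tameField hq hA (h.mem_tameField hq hζ y) ((map_ne_zero ι).2 hy)

end Mid

end Fermat.Agent.S36.StepA
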