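import Fermat.Agent.S36.StepA.Defs
import Fermat.Agent.S36.Hecke.BetaNorm
import Fermat.Agent.DR.Hecke.Galois
import Fermat.Agent.DR.Hecke.NormLemmas
import Fermat.Agent.DR.Gal.Level

/-!
# S36/StepA : degrees, norm formulas, Galois equivariance at level `M q²`
-/

set_option autoImplicit false

noncomputable section

namespace Fermat.Agent.S36.StepA

open AlgebraicCurve ModularCurve Fermat.Agent.S24 Fermat.Agent.GAL Fermat.Agent.GAL.Hecke
  Fermat.Agent.GAL.NormFormula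

variable {M q : ℕ} [NeZero M] [NeZero q]

/-! ### degrees -/

/-- **Leaf DEG-a.** `[FN (M q q) : α FN (M q)] = q` (`ψ(M q²) = q ψ(M q)`; as
`DegreeAlpha.finrank_alpha`). -/
theorem finrankAlong_a2 (hq : q.Prime) : finrankAlong Kbar (a2 M q) = q :=
  Hecke.finrankAlong_alpha_of_dvd hq (Dvd.intro_left M rfl)

/-- **Leaf DEG-b.** `[FN (M q q) : β FN (M q)] = q` (transport DEG-a by `W`, `wq`). -/
theorem finrankAlong_b2 (hq : q.Prime) : finrankAlong Kbar (b2 M q) = q :=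
  Hecke.finrankAlong_beta_of_dvd hq (Dvd.intro_left M rfl)

/-! ### norm formulas -/

/-- **Leaf NF-b.** `(N_β u)(t^q) = ∏_{i<q} u(ζ^i t)`. -/
theorem qExpand_normAlong_b2 (hq : q.Prime) {ζ : Kbar}
    (hζ : IsPrimitiveRoot ζ q) (u : FN (M * q * q)) :
    qExpand Kbar q ((normAlong (b2 M q) u : FN (M * q)) : LaurentSeries Kbar) =
      ∏ i : Fin q, Fermat.Agent.S24.twist (ζ ^ (i : ℕ)) (pow_ne_zero _ (hζ.ne_zero hq.ne_zero))
        (u : LaurentSeries Kbar) :=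
  Hecke.qExpand_normAlong_beta hq (Dvd.intro_left M rfl) hζ u

/-- The `q` embeddings of `FN (M q q)` over `α`: the expansion at `∞` and the middle ones. -/
def embA (M q : ℕ) (ι : ℕ → FN (M * q * q) →+* LaurentSeries Kbar) (i : Fin q) :
    FN (M * q * q) →+* LaurentSeries Kbar :=
  if (i : ℕ) = 0 then valN (M * q * q) else ι i

theorem embA_zero (ι : ℕ → FN (M * q * q) →+* LaurentSeries Kbar) (i : Fin q) (hi : (i : ℕ) = 0) :
    embA M q ι i = valN (M * q * q) := if_pos hi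

theorem embA_pos (ι : ℕ → FN (M * q * q) →+* LaurentSeries Kbar) (i : Fin q) (hi : (i : ℕ) ≠ 0) :
    embA M q ι i = ι i := if_neg hi

theorem embA_alpha {ζ : Kbar} (hζ0 : ζ ≠ 0) (ι : ℕ → FN (M * q * q) →+* LaurentSeries Kbar)
    (hι : ∀ i, 0 < i → i < q → IsMid M q (ζ ^ i) (pow_ne_zero _ hζ0) (ι i))
    (i : Fin q) (x : FN (M * q)) : embA M q ι i (a2 M q x) = valN (M * q) x := by
  by_cases hi : (i : ℕ) = 0
  · rw [embA_zero ι i hi, valN_apply, valN_apply, coe_heckeAlphaBar]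
  · rw [embA_pos ι i hi, (hι i (Nat.pos_of_ne_zero hi) i.2).alpha x, valN_apply]

theorem embA_injective (hq : q.Prime) {ζ : Kbar} (hζ : IsPrimitiveRoot ζ q)
    (ι : ℕ → FN (M * q * q) →+* LaurentSeries Kbar)
    (hι : ∀ i, 0 < i → i < q → IsMid M q (ζ ^ i) (pow_ne_zero _ (hζ.ne_zero hq.ne_zero)) (ι i)) :
    Function.Injective (embA M q ι) := by
  have hζ0 := hζ.ne_zero hq.ne_zero
  obtain ⟨x0, hwx0⟩ : ∃ x0 : FN (M * q), DR.wq M q x0 = jF (M * q) :=
    ⟨DR.wq M q (jF (M * q)), DR.wq_wq M q _⟩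
  have hc0 : ∀ i : Fin q, (i : ℕ) = 0 → (embA M q ι i (b2 M q x0)).coeff (-1) = 0 := by
    intro i hi
    rw [embA_zero ι i hi, valN_apply, coe_heckeBetaBar]
    apply qExpand_coeff_of_not_dvd
    rw [Int.dvd_neg, Int.natCast_dvd_ofNat]
    exact fun h => hq.one_lt.ne' (Nat.dvd_one.mp h)
  have hc1 : ∀ i : Fin q, (i : ℕ) ≠ 0 →
      (embA M q ι i (b2 M q x0)).coeff (-1) = (ζ ^ (i : ℕ))⁻¹ := by
    intro i hi
    rw [embA_pos ι i hi, (hι i (Nat.pos_of_ne_zero hi) i.2).beta, hwx0, twist_coeff, coe_jF,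
      coeff_jK_neg_one, mul_one, zpow_neg_one]
  intro i k hik
  have h1 : (embA M q ι i (b2 M q x0)).coeff (-1) = (embA M q ι k (b2 M q x0)).coeff (-1) := by
    rw [hik]
  by_cases hi : (i : ℕ) = 0 <;> by_cases hk : (k : ℕ) = 0
  · exact Fin.ext (hi.trans hk.symm)
  · rw [hc0 i hi, hc1 k hk] at h1
    exact absurd h1.symm (inv_ne_zero (pow_ne_zero _ hζ0))
  · rw [hc1 i hi, hc0 k hk] at h1
    exact absurd h1 (inv_ne_zero (pow_ne_zero _ hζ0))
  · rw [hc1 i hi, hc1 k hk, inv_inj] at h1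
    exact Fin.ext (hζ.pow_inj i.2 k.2 h1)

theorem prod_embA (hq : q.Prime) (ι : ℕ → FN (M * q * q) →+* LaurentSeries Kbar)
    (u : FN (M * q * q)) :
    ∏ i : Fin q, embA M q ι i u = (u : LaurentSeries Kbar) * ∏ i ∈ Finset.Ioo 0 q, ι i u := by
  classical
  have h1 : ∏ i : Fin q, embA M q ι i u =
      ∏ i : Fin q, (fun n : ℕ => if n = 0 then (u : LaurentSeries Kbar) else ι n u) (i : ℕ) := by
    refine Finset.prod_congr rfl (fun i _ => ?_)
    by_cases hi : (i : ℕ) = 0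
    · rw [embA_zero ι i hi, valN_apply]
      exact (if_pos hi).symm
    · rw [embA_pos ι i hi]
      exact (if_neg hi).symm
  rw [h1, Fin.prod_univ_eq_prod_range
    (fun n : ℕ => if n = 0 then (u : LaurentSeries Kbar) else ι n u) q, Finset.range_eq_Ico,
    Finset.prod_eq_prod_Ico_succ_bot hq.pos]
  have h2 : Finset.Ico (0 + 1) q = Finset.Ioo 0 q := by
    ext n
    simp only [Finset.mem_Ico, Finset.mem_Ioo]
    omega
  rw [h2, if_pos rfl]
  congr 1
  refine Finset.prod_congr rfl (fun n hn => ?_)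
  rw [if_neg (Finset.mem_Ioo.mp hn).1.ne']

/-- **Leaf NF-a.** `N_α u = u * ∏_{0<i<q} ι_{ζ^i} u`. -/
theorem coe_normAlong_a2 (hq : q.Prime) (hqM : ¬ q ∣ M) {ζ : Kbar}
    (hζ : IsPrimitiveRoot ζ q) (ι : ℕ → FN (M * q * q) →+* LaurentSeries Kbar)
    (hι : ∀ i, 0 < i → i < q → IsMid M q (ζ ^ i) (pow_ne_zero _ (hζ.ne_zero hq.ne_zero)) (ι i))
    (u : FN (M * q * q)) :
    ((normAlong (a2 M q) u : FN (M * q)) : LaurentSeries Kbar) =
      (u : LaurentSeries Kbar) * ∏ i ∈ Finset.Ioo 0 q, ι i u := by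
  rw [← prod_embA hq ι u]
  exact @norm_eq_prod_of_embeddings (FN (M * q)) (FN (M * q * q)) (LaurentSeries Kbar)
    (Fin q) _ _ _ _ _ (algebraAlong (a2 M q)) (finiteAlong_alpha (M * q) q)
    (valN (M * q)) (embA M q ι)
    (fun i x => embA_alpha (hζ.ne_zero hq.ne_zero) ι hι i x) (embA_injective hq hζ ι hι)
    (by rw [Fintype.card_fin]; exact (finrankAlong_a2 hq).symm) u

/-- `w_q` as a ring equivalence. -/
def wqEquiv (M q : ℕ) [NeZero M] [NeZero q] : FN (M * q) ≃+* FN (M * q) :=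
  (AlgEquiv.ofAlgHom (DR.wq M q) (DR.wq M q) (DR.wq_comp_wq M q) (DR.wq_comp_wq M q)).toRingEquiv

theorem wq_gal (hq : q.Prime) (hqM : ¬ q ∣ M) (σ : Kbar ≃ₐ[ℚ] Kbar) (x : FN (M * q)) :
    DR.wq M q (gal (M * q) σ x) = gal (M * q) σ (DR.wq M q x) := by
  rw [DR.Gal.wq_eq_wHom hq hqM]
  exact DR.Hecke.wHom_arithmeticRingAut hq hqM σ x

theorem coeffMap_twist (σ : Kbar ≃ₐ[ℚ] Kbar) (ζ : Kbar) (hζ0 : ζ ≠ 0) (s : LaurentSeries Kbar) :
    coeffMap (σ : Kbar →+* Kbar) (Fermat.Agent.S24.twist ζ hζ0 s) =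
      Fermat.Agent.S24.twist (σ ζ) ((map_ne_zero σ).2 hζ0) (coeffMap (σ : Kbar →+* Kbar) s) := by
  ext n
  rw [coeffMap_coeff, twist_coeff, twist_coeff, coeffMap_coeff, map_mul, map_zpow₀]
  rfl

/-- **Leaf NF-W.** `N_β (W u) = w_q (N_α u)`. -/
theorem normAlong_b2_W (hq : q.Prime) (hqM : ¬ q ∣ M)
    {W : FN (M * q * q) ≃ₐ[Kbar] FN (M * q * q)} (hW : IsW2 M q W) (u : FN (M * q * q)) :
    normAlong (b2 M q) (W u) = DR.wq M q (normAlong (a2 M q) u) :=
  DR.Hecke.normAlong_equiv_equiv (a2 M q) (b2 M q) (wqEquiv M q) W.toRingEquiv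
    (fun x => (hW.alpha x).symm) u

/-! ### Galois -/

/-- **Leaf GAL-W.** `w_{q²}` commutes with the Galois action. -/
theorem IsW2.galois (hq : q.Prime) (hqM : ¬ q ∣ M)
    {W : FN (M * q * q) ≃ₐ[Kbar] FN (M * q * q)} (hW : IsW2 M q W) (σ : Kbar ≃ₐ[ℚ] Kbar)
    (y : FN (M * q * q)) : W (gal (M * q * q) σ y) = gal (M * q * q) σ (W y) := by
  have key : ((W : FN (M * q * q) ≃ₐ[Kbar] FN (M * q * q)) : FN (M * q * q) →+* FN (M * q * q)).comp
        ((gal (M * q * q) σ : FN (M * q * q) ≃+* FN (M * q * q)) : FN (M * q * q) →+* FN (M * q * q)) =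
      ((gal (M * q * q) σ : FN (M * q * q) ≃+* FN (M * q * q)) : FN (M * q * q) →+* FN (M * q * q)).comp
        ((W : FN (M * q * q) ≃ₐ[Kbar] FN (M * q * q)) : FN (M * q * q) →+* FN (M * q * q)) := by
    refine ringHom_ext2 hq _ _ (fun c => ?_) (fun u => ?_) (fun u => ?_)
    · show W (gal (M * q * q) σ (algebraMap Kbar _ c)) = gal (M * q * q) σ (W (algebraMap Kbar _ c))
      rw [arithmeticRingAut_algebraMap, AlgEquiv.commutes, AlgEquiv.commutes,
        arithmeticRingAut_algebraMap]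
    · show W (gal (M * q * q) σ (a2 M q u)) = gal (M * q * q) σ (W (a2 M q u))
      rw [← heckeAlphaBar_arithmeticRingAut, hW.alpha, hW.alpha, wq_gal hq hqM,
        heckeBetaBar_arithmeticRingAut]
    · show W (gal (M * q * q) σ (b2 M q u)) = gal (M * q * q) σ (W (b2 M q u))
      rw [← heckeBetaBar_arithmeticRingAut, hW.beta, hW.beta, wq_gal hq hqM,
        heckeAlphaBar_arithmeticRingAut]
  exact RingHom.congr_fun key y

/-- **Leaf GAL-MID.** `σ (ι_ζ u) = ι_{σ ζ} (σ u)`. -/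
theorem IsMid.galois (hq : q.Prime) (hqM : ¬ q ∣ M) {ζ : Kbar} {hζ0 : ζ ≠ 0}
    {ι : FN (M * q * q) →+* LaurentSeries Kbar} (h : IsMid M q ζ hζ0 ι) (σ : Kbar ≃ₐ[ℚ] Kbar)
    {ι' : FN (M * q * q) →+* LaurentSeries Kbar}
    (h' : IsMid M q (σ ζ) ((map_ne_zero σ).2 hζ0) ι') (u : FN (M * q * q)) :
    coeffMap (σ : Kbar →+* Kbar) (ι u) = ι' (gal (M * q * q) σ u) := by
  have key : (coeffMap (σ : Kbar →+* Kbar)).comp ι =
      ι'.comp ((gal (M * q * q) σ : FN (M * q * q) ≃+* FN (M * q * q)) :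
        FN (M * q * q) →+* FN (M * q * q)) := by
    refine ringHom_ext2 hq _ _ (fun c => ?_) (fun u => ?_) (fun u => ?_)
    · show coeffMap (σ : Kbar →+* Kbar) (ι (algebraMap Kbar _ c)) =
        ι' (gal (M * q * q) σ (algebraMap Kbar _ c))
      rw [arithmeticRingAut_algebraMap, h.map_const, h'.map_const, coeffMap_algebraMap]
      rfl
    · show coeffMap (σ : Kbar →+* Kbar) (ι (a2 M q u)) = ι' (gal (M * q * q) σ (a2 M q u))
      rw [← heckeAlphaBar_arithmeticRingAut, h.alpha, h'.alpha, coe_arithmeticRingAut_apply]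
    · show coeffMap (σ : Kbar →+* Kbar) (ι (b2 M q u)) = ι' (gal (M * q * q) σ (b2 M q u))
      rw [← heckeBetaBar_arithmeticRingAut, h.beta, h'.beta, wq_gal hq hqM,
        coe_arithmeticRingAut_apply, coeffMap_twist]
  exact RingHom.congr_fun key u

end Fermat.Agent.S36.StepA
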