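import Fermat.Agent.S36.StepA.HorGal

/-!
# S36, STEP-A : the statements on `H_e` for `V : ValOver A F` when `R.A = A` only propositionally

For `R = DR.Conc.RM A M hM` the equality `R.A = A` is not definitional.  All the statements of `Geo/HMain`, `StepA/HorConc`,
`StepA/HorGal` are about `V : ValOver R.A F`; here they are restated for `V : ValOver A F` (proof: `subst`).
-/

set_option autoImplicit false
set_option linter.unusedSectionVars false

noncomputable section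

namespace Fermat.Agent.S36.StepA

open AlgebraicCurve ModularCurve Fermat.Agent.S24 Fermat.Agent.GAL.RED
  Fermat.Agent.S36.Val Fermat.Agent.S36.Geo IntermediateField

section Abs

variable {K E F k Eb : Type*} [Field K] [Field E] [Field F] [Algebra K E] [Algebra E F] [Algebra K F]
  [IsScalarTower K E F] [Field k] [Field Eb] [Algebra k Eb]
  [Lib.RR.IsFF K E] [IsAlgClosed K] [Lib.RR.IsFF k Eb] [IsAlgClosed k]
variable {R : RedData K E k Eb} {r : Place K E → Place k Eb} {e : Place k Eb} {q : ℕ}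
  {ϖ : K} {x : E} {g rr ss : ℕ → E} {c : K} {x₀ x₂ : F} {A : ValuationSubring K}

/-- existence and uniqueness of `H_e`. -/
theorem HInput_existsUnique_A (hRA : R.A = A) [Fact q.Prime]
    [CharP (IsLocalRing.ResidueField ↥A) q] (h : HInput R r e q ϖ x g rr ss c x₀ x₂)
    (hr : IsRedMap R r) (hC : R.IsCartesian) :
    ∃! V : ValOver A F, IsDiscVal R r e x (ϖ ^ q) (V.O.comap (algebraMap E F)) := by
  subst hRA
  exact h.existsUnique hr hC

/-- the residue field of `H_e`. -/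
theorem HInput_isHCurve_A (hRA : R.A = A) [Fact q.Prime]
    [CharP (IsLocalRing.ResidueField ↥A) q] (h : HInput R r e q ϖ x g rr ss c x₀ x₂)
    (hr : IsRedMap R r) (hC : R.IsCartesian) (V : ValOver A F)
    (hV : IsDiscVal R r e x (ϖ ^ q) (V.O.comap (algebraMap E F))) :
    ∃ hc : c ∈ A, IsHCurve (IsLocalRing.ResidueField ↥A) q (IsLocalRing.residue ↥A ⟨c, hc⟩)
        (V.red ((algebraMap K F ϖ)⁻¹ * x₀)) (V.red ((algebraMap K F ϖ)⁻¹ * x₂)) ∧
      (IsLocalRing.ResidueField ↥A)⟮V.red ((algebraMap K F ϖ)⁻¹ * x₀),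
        V.red ((algebraMap K F ϖ)⁻¹ * x₂)⟯ = ⊤ := by
  subst hRA
  exact ⟨h.c_mem, h.isHCurve hr hC V hV⟩

/-- scales on `H_e`. -/
theorem HInput_exists_scale_A (hRA : R.A = A) [Fact q.Prime]
    [CharP (IsLocalRing.ResidueField ↥A) q] (h : HInput R r e q ϖ x g rr ss c x₀ x₂)
    (hr : IsRedMap R r) (hC : R.IsCartesian) (V : ValOver A F)
    (hV : IsDiscVal R r e x (ϖ ^ q) (V.O.comap (algebraMap E F))) {w : F} (hw : w ≠ 0) :
    ∃ a : K, a ≠ 0 ∧ V.redData.red (a • w) ≠ 0 := by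
  subst hRA
  exact HInput_exists_scale h hr hC V hV hw

end Abs

section Conc

variable {M N q : ℕ} [NeZero M] [Algebra (FN M) (FN N)] [IsScalarTower Kbar (FN M) (FN N)]
  {k Eb : Type*} [Field k] [Field Eb] [Algebra k Eb] [Lib.RR.IsFF k Eb] [IsAlgClosed k]
  {R : RedData Kbar (FN M) k Eb} {r : Place Kbar (FN M) → Place k Eb} {e : Place k Eb}
  {ϖ : Kbar} {x : FN M} {g rr ss : ℕ → FN M} {c : Kbar} {x₀ x₂ : FN N}
  {A : ValuationSubring Kbar}

/-- **`hhor`** for `V : ValOver A (FN N)`. -/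
theorem hhor_of_HInput_A (hRA : R.A = A) (hq : q.Prime) (hA : A.LiesOverPrime q)
    (hcomm : ∀ (τ : Kbar ≃ₐ[ℚ] Kbar) (f : FN M),
      E.gal N τ • algebraMap (FN M) (FN N) f = algebraMap (FN M) (FN N) (E.gal M τ • f))
    (h : HInput R r e q ϖ x g rr ss c x₀ x₂) (hr : IsRedMap R r) (hC : R.IsCartesian)
    (V : ValOver A (FN N)) (hV : IsDiscVal R r e x (ϖ ^ q) (V.O.comap (algebraMap (FN M) (FN N))))
    (hdisc : ∀ τ ∈ A.inertiaSubgroupIn ℚ, ∀ f, E.gal M τ • f ∈ discRing R r e ↔ f ∈ discRing R r e)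
    (hx : ∀ τ ∈ A.inertiaSubgroupIn ℚ, E.gal M τ • x = x)
    (hx₀ : ∀ τ ∈ A.inertiaSubgroupIn ℚ, E.gal N τ • x₀ = x₀)
    (hx₂ : ∀ τ ∈ A.inertiaSubgroupIn ℚ, E.gal N τ • x₂ = x₂) :
    ∃ t : V.Res, Transcendental (E.kk A) t ∧
      ∃ (_ : FiniteDimensional (E.kk A)⟮t⟯ V.Res) (_ : IsGalois (E.kk A)⟮t⟯ V.Res),
        Module.finrank (E.kk A)⟮t⟯ V.Res = q + 1 ∧
        ∀ γ : V.Res ≃ₐ[(E.kk A)⟮t⟯] V.Res, ∃ τ ∈ A.inertiaSubgroupIn ℚ,
          ∀ y ∈ V.redData.O, V.redData.red (E.gal N τ • y) = γ (V.redData.red y) := by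
  subst hRA
  exact hhor_of_HInput hq hA hcomm h hr hC V hV hdisc hx hx₀ hx₂

end Conc

end Fermat.Agent.S36.StepA
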