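import Fermat.Agent.S36.Geo.Big
import Fermat.Agent.S36.Val.ValOver
import Fermat.Agent.GAL.RED.Basic

/-!
# S36, STEP-A, concrete part for the big components

Two reduction data with the same valuation ring have the same `1`-units and the same units; hence the
compatibility hypotheses `hinf`, `hzero`, `hmid` of `StepA.stepA_of_EData` and the scales for every reduction datum whose
valuation ring is the one of a series embedding `GEmb`.
-/

set_option autoImplicit false

noncomputable section

namespace Fermat.Agent.S36.StepA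

open ModularCurve AlgebraicCurve Fermat.Agent.S24 Fermat.Agent.GAL Fermat.Agent.GAL.Gauss
  Fermat.Agent.GAL.RED Fermat.Agent.S36.Geo Fermat.Agent.S36.Val

section Abs

variable {K F k Fb : Type*} [Field K] [Field F] [Algebra K F] [Field k] [Field Fb] [Algebra k Fb]

theorem BigConc_red_one (R : RedData K F k Fb) : R.red 1 = 1 := by
  rw [R.red_of_mem R.O.one_mem]
  exact map_one R.res

/-- `red f = 1` in terms of the valuation ring only. -/
theorem red_eq_one_iff_valuation (R : RedData K F k Fb) {f : F} :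
    R.red f = 1 ↔ R.O.valuation (f - 1) < 1 := by
  constructor
  · intro h
    have hf : f ∈ R.O := R.mem_of_red_ne_zero (by rw [h]; exact one_ne_zero)
    rw [← R.red_eq_zero_iff (R.O.sub_mem hf R.O.one_mem), R.red_sub hf R.O.one_mem, h,
      BigConc_red_one, sub_self]
  · intro h
    have h1 : f - 1 ∈ R.O := (R.O.valuation_le_one_iff _).1 h.le
    have hf : f ∈ R.O := by
      have := R.O.add_mem _ _ h1 R.O.one_mem
      rwa [sub_add_cancel] at this
    have h2 := (R.red_eq_zero_iff h1).2 h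
    rw [R.red_sub hf R.O.one_mem, BigConc_red_one, sub_eq_zero] at h2
    exact h2

variable {k' Fb' : Type*} [Field k'] [Field Fb'] [Algebra k' Fb']

theorem red_eq_one_of_O_eq (R : RedData K F k Fb) (R' : RedData K F k' Fb') (h : R.O = R'.O) {f : F}
    (hf : R'.red f = 1) : R.red f = 1 := by
  rw [red_eq_one_iff_valuation] at hf ⊢
  rw [h]
  exact hf

theorem red_ne_zero_of_O_eq (R : RedData K F k Fb) (R' : RedData K F k' Fb') (h : R.O = R'.O) {f : F}
    (hf : R'.red f ≠ 0) : R.red f ≠ 0 := by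
  rw [RedData.red_ne_zero_iff_valuation] at hf ⊢
  rw [h]
  exact hf

end Abs

section GEmb

variable {A : ValuationSubring Kbar} {F : Type} [Field F] [Algebra Kbar F] (G : GEmb A F)
  {k Fb : Type*} [Field k] [Field Fb] [Algebra k Fb]

theorem GEmb_red_eq_one {f : F} (h : IsOne A (G.φ f)) : G.redData.red f = 1 := by
  obtain ⟨h1, h2⟩ := h
  apply Subtype.ext
  rw [G.coe_red f h1, h2]
  rfl

/-- **(B1)** -/
theorem red_eq_one_of_isOne (R : RedData Kbar F k Fb) (hO : R.O = G.O) {f : F}
    (h : IsOne A (G.φ f)) : R.red f = 1 :=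
  red_eq_one_of_O_eq R G.redData hO (GEmb_red_eq_one G h)

/-- **(B2)** -/
theorem exists_scale_of_O_eq (R : RedData Kbar F k Fb) (hO : R.O = G.O) {w : F} (hw : w ≠ 0) :
    ∃ a : Kbar, a ≠ 0 ∧ R.red (a • w) ≠ 0 := by
  obtain ⟨c, hc, h⟩ := G.exists_scale w hw
  exact ⟨c⁻¹, inv_ne_zero hc, red_ne_zero_of_O_eq R G.redData hO h⟩

end GEmb

section Setup

variable (S : Setup) {k Fb : Type*} [Field k] [Field Fb] [Algebra k Fb]

/-- `hinf`. -/
theorem Setup_hinf (R : RedData Kbar S.F2 k Fb) (hO : R.O = S.embInf.O) (f : S.F2)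
    (h : IsOne S.A (f : LaurentSeries Kbar)) : R.red f = 1 :=
  red_eq_one_of_isOne S.embInf R hO h

/-- `hzero`. -/
theorem Setup_hzero (R : RedData Kbar S.F2 k Fb) (hO : R.O = S.embZero.O) (f : S.F2)
    (h : IsOne S.A ((S.W2 f : S.F2) : LaurentSeries Kbar)) : R.red f = 1 :=
  red_eq_one_of_isOne S.embZero R hO h

/-- `hmid`. -/
theorem Setup_hmid (w : S.MidIdx) (R : RedData Kbar S.F2 k Fb) (hO : R.O = w.1) :
    ∃ (ζ : Kbar) (hζ : IsPrimitiveRoot ζ S.q) (ι : S.F2 →+* LaurentSeries Kbar),
      IsMid S.M S.q ζ (hζ.ne_zero S.hq.ne_zero) ι ∧ ∀ f, IsOne S.A (ι f) → R.red f = 1 :=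
  ⟨w.root.1, w.root.2, S.iotaMid w.root, S.isMid w.root, fun _ h =>
    red_eq_one_of_isOne (S.embMid w.root) R (hO.trans w.root_spec.symm) h⟩

end Setup

end Fermat.Agent.S36.StepA
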