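import Fermat.Agent.S36.StepA.ToKall
import Fermat.Agent.S36.StepA.BigConc
import Fermat.Agent.S36.E.Symm.Big

/-!
# S36, STEP-A for the concrete family `E.stT S Vhor`

`S : Geo.Setup`, `Vhor : SS → ValOver S.A S.F2` the valuations of the horizontal components.
* `hasScales_stT` : `HasScales (stT S Vhor)` from scales on the `H_e`;
* `stepA_stT` : the field `stepA` of `E.EContract` with `d₁ = (q - 1) (q + 1)`; the only hypotheses are `IsPreNodal`, `Shape`,
  and on each `H_e` the scales and `hhor` (= `Kron.KOut.exists_scale_hor`, `Kron.KOut.hhor`).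
-/

set_option autoImplicit false
set_option linter.unusedSectionVars false

noncomputable section

namespace Fermat.Agent.S36.StepA

open AlgebraicCurve ModularCurve Fermat.Agent.S24 Fermat.Agent.GAL Fermat.Agent.GAL.RED
  Fermat.Agent.GAL.Hecke Fermat.Agent.DR.Abs Fermat.Agent.Lib.RR Fermat.Agent.S36.Abs
  Fermat.Agent.S36.Norm Fermat.Agent.DR Fermat.Agent.S36.E Fermat.Agent.S36.Geo
  Fermat.Agent.S36.Val IntermediateField

variable (S : Geo.Setup) {SS : Type} (Vhor : SS → ValOver S.A S.F2)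

/-- scales on all the components. -/
theorem hasScales_stT
    (hsc : ∀ (e : SS) (w : S.F2), w ≠ 0 → ∃ a : Kbar, a ≠ 0 ∧ (Vhor e).redData.red (a • w) ≠ 0) :
    HasScales (stT S Vhor) := by
  intro i w hw
  cases i with
  | inf => exact exists_scale_of_O_eq S.embInf _ rfl hw
  | zero => exact exists_scale_of_O_eq S.embZero _ rfl hw
  | mid j => exact exists_scale_of_O_eq (S.embMid j.root) _ rfl hw
  | hor e => exact hsc e w hw

variable {J : Type} [Fintype SS] [Fintype J] [∀ i, Lib.RR.IsFF S.k (stFb S Vhor i)]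

/-- **STEP-A for `stT`.** -/
theorem stepA_stT {x0 : S.F2} {N : NodeData S.k (stFb S Vhor) (Nd SS J)} {a₀ : ℕ}
    (h : IsPreNodal (stT S Vhor) x0 N a₀) {μ : J → S.MidIdx} (hN : Shape μ N)
    (hsc : ∀ (e : SS) (w : S.F2), w ≠ 0 → ∃ a : Kbar, a ≠ 0 ∧ (Vhor e).redData.red (a • w) ≠ 0)
    (hhor : ∀ e : SS, ∃ t : (Vhor e).Res, Transcendental S.k t ∧
      ∃ (_ : FiniteDimensional S.k⟮t⟯ (Vhor e).Res) (_ : IsGalois S.k⟮t⟯ (Vhor e).Res),
        Module.finrank S.k⟮t⟯ (Vhor e).Res = S.q + 1 ∧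
        ∀ γ : (Vhor e).Res ≃ₐ[S.k⟮t⟯] (Vhor e).Res, ∃ τ ∈ S.A.inertiaSubgroupIn ℚ,
          ∀ y ∈ (Vhor e).redData.O,
            (Vhor e).redData.red (E.gal (S.M * S.q * S.q) τ • y) = γ ((Vhor e).redData.red y))
    (m : ℕ) (hm : (m : S.k) ≠ 0) (κ : KV Kbar S.F2 m)
    (hI : ∀ σ ∈ S.A.inertiaSubgroupIn ℚ, σ • κ = κ) (hα : alphaKV (S.M * S.q) S.q m κ = 0)
    (hβ : betaKV (S.M * S.q) S.q m κ = 0) :
    ((S.q - 1) * (S.q + 1)) • κ ∈ Kall (stT S Vhor) m := by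
  refine mem_Kall_of_new S.hq S.hqM S.hA hm h (hasScales_stT S Vhor hsc) hN S.isW2
    (Setup_hinf S _ rfl) (Setup_hzero S _ rfl) (fun j => Setup_hmid S j _ j.root_spec) (S.q + 1) ?_
    κ hI hα hβ
  intro e
  obtain ⟨t, ht, h1, h2, h3, h4⟩ := hhor e
  exact ⟨t, ht, h1, h2, h3 ▸ dvd_rfl, h4⟩

end Fermat.Agent.S36.StepA
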