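import Fermat.Agent.S36.StepA.Tame
import Fermat.Agent.S36.Hecke.BetaNorm
import Fermat.Agent.Lib.Frobenius

/-!
# S36/StepA : `N_β` is the Frobenius on the reduction at `∞`

`Sim A s t` (`s ≈ t`) : `s / t` is a constant times a Gauss `1`-unit.

`sim_down` : for `q ∣ M`, `v ∈ FN (M q)ˣ` and a Frobenius element `σ`:  `v ≈ σ⁻¹ (N_β v)`,
an element of `FN M`.  In particular the Gauss valuation at `∞` of `FN (M q)` has the same residue
field as its restriction to `FN M`.
-/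

set_option autoImplicit false

noncomputable section

namespace Fermat.Agent.S36.StepA

open AlgebraicCurve ModularCurve Fermat.Agent.S24 Fermat.Agent.GAL Fermat.Agent.GAL.Gauss
  Fermat.Agent.GAL.Hecke Fermat.Agent.DR.Conc

variable (A : ValuationSubring Kbar)

/-- `s ≈ t`. -/
def Sim (s t : LaurentSeries Kbar) : Prop := Near1 A (s / t)

variable {A}

section Sim

variable {s t u s' t' : LaurentSeries Kbar}

theorem Sim.refl (hs : s ≠ 0) : Sim A s s := by
  rw [Sim, div_self hs]; exact Near1.one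

theorem Sim.of_eq (hs : s ≠ 0) (h : s = t) : Sim A s t := h ▸ Sim.refl hs

theorem Sim.symm (h : Sim A s t) : Sim A t s := Near1.symm h

theorem Sim.trans (h : Sim A s t) (h' : Sim A t u) : Sim A s u := Near1.trans h h'

theorem Sim.left_ne_zero (h : Sim A s t) : s ≠ 0 := fun h0 => h.ne_zero (by rw [h0, zero_div])

theorem Sim.right_ne_zero (h : Sim A s t) : t ≠ 0 := fun h0 => h.ne_zero (by rw [h0, div_zero])

theorem Sim.mul (h : Sim A s t) (h' : Sim A s' t') : Sim A (s * s') (t * t') := by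
  rw [Sim, mul_div_mul_comm]; exact Near1.mul h h'

theorem Sim.inv (h : Sim A s t) : Sim A s⁻¹ t⁻¹ := by
  rw [Sim, ← inv_div_inv, inv_inv, inv_inv]; exact Near1.symm h

theorem Sim.div (h : Sim A s t) (h' : Sim A s' t') : Sim A (s / s') (t / t') := by
  rw [div_eq_mul_inv, div_eq_mul_inv]; exact h.mul h'.inv

theorem Sim.pow (h : Sim A s t) (n : ℕ) : Sim A (s ^ n) (t ^ n) := by
  rw [Sim, ← div_pow]; exact Near1.pow h n

theorem Sim.prod {ι : Type*} (S : Finset ι) (f g : ι → LaurentSeries Kbar)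
    (h : ∀ i ∈ S, Sim A (f i) (g i)) : Sim A (∏ i ∈ S, f i) (∏ i ∈ S, g i) := by
  rw [Sim, ← Finset.prod_div_distrib]; exact Near1.prod S _ h

theorem Sim.normable (h : Sim A s t) (ht : Normable A t) : Normable A s :=
  Normable.of_near1_div h ht

end Sim

theorem coeffMap_symm_apply (σ : Kbar ≃ₐ[ℚ] Kbar) (s : LaurentSeries Kbar) :
    coeffMap (σ : Kbar →+* Kbar) (coeffMap ((σ⁻¹ : Kbar ≃ₐ[ℚ] Kbar) : Kbar →+* Kbar) s) = s := by
  ext n
  show σ (σ⁻¹ (s.coeff n)) = s.coeff n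
  rw [← AlgEquiv.mul_apply, mul_inv_cancel, AlgEquiv.one_apply]

variable {M q : ℕ} [NeZero M] [NeZero q]

/-- `∏_i v(ζ^i t) ≈ v^q`. -/
theorem sim_prod_twist (hq : q.Prime) (hA : A.LiesOverPrime q) {ζ : Kbar}
    (hζ : IsPrimitiveRoot ζ q) {s : LaurentSeries Kbar} (hs : Normable A s) :
    Sim A (∏ i : Fin q, Fermat.Agent.S24.twist (ζ ^ (i : ℕ))
      (pow_ne_zero _ (hζ.ne_zero hq.ne_zero)) s) (s ^ q) := by
  have h := Sim.prod (A := A) (Finset.univ : Finset (Fin q))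
    (fun i => Fermat.Agent.S24.twist (ζ ^ (i : ℕ)) (pow_ne_zero _ (hζ.ne_zero hq.ne_zero)) s)
    (fun _ => s) (fun i _ => near1_twist_div hq hA hs
      (by rw [← pow_mul, mul_comm, pow_mul, hζ.pow_eq_one, one_pow]) _)
  rwa [Finset.prod_const, Finset.card_univ, Fintype.card_fin] at h

/-- **`N_β` = Frobenius.**  `(N_β v)(t^q) ≈ v^q`. -/
theorem sim_qExpand_normBeta (hq : q.Prime) (hA : A.LiesOverPrime q) (hqM : q ∣ M)
    (v : FN (M * q)) (hv : v ≠ 0) :
    Sim A (qExpand Kbar q ((normAlong (heckeBetaBar Kbar M q) v : FN M) : LaurentSeries Kbar))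
      ((v : LaurentSeries Kbar) ^ q) := by
  obtain ⟨ζ, hζ⟩ := HasEnoughRootsOfUnity.exists_primitiveRoot Kbar q
  rw [S36.Hecke.qExpand_normAlong_beta hq hqM hζ v]
  exact sim_prod_twist hq hA hζ (normable_coe hq hA v hv)

theorem normBeta_ne_zero (hq : q.Prime) (hA : A.LiesOverPrime q) (hqM : q ∣ M)
    (v : FN (M * q)) (hv : v ≠ 0) : normAlong (heckeBetaBar Kbar M q) v ≠ 0 := by
  intro h
  have := (sim_qExpand_normBeta hq hA hqM v hv).left_ne_zero
  rw [h] at this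
  exact this (map_zero _)

/-- **Level down.**  `v ≈ σ⁻¹ (N_β v)`. -/
theorem sim_down (hq : q.Prime) (hA : A.LiesOverPrime q) (hqM : q ∣ M) (σ : Kbar ≃ₐ[ℚ] Kbar)
    (hσ : A.IsFrobeniusAt σ q) (v : FN (M * q)) (hv : v ≠ 0) :
    Sim A (v : LaurentSeries Kbar)
      ((gal M σ⁻¹ (normAlong (heckeBetaBar Kbar M q) v) : FN M) : LaurentSeries Kbar) := by
  set w : FN M := normAlong (heckeBetaBar Kbar M q) v with hw
  have hw0 : w ≠ 0 := normBeta_ne_zero hq hA hqM v hv
  have hs0 : gal M σ⁻¹ w ≠ 0 := (map_ne_zero _).2 hw0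
  have hsN := normable_coe hq hA (gal M σ⁻¹ w) hs0
  have h1 := near1_frobenius_div hq hA hsN σ hσ
  have e : coeffMap (σ : Kbar →+* Kbar) ((gal M σ⁻¹ w : FN M) : LaurentSeries Kbar) =
      (w : LaurentSeries Kbar) := by
    rw [coe_arithmeticRingAut_apply, coeffMap_symm_apply]
  rw [e] at h1
  have h2 : Sim A ((v : LaurentSeries Kbar) ^ q)
      (((gal M σ⁻¹ w : FN M) : LaurentSeries Kbar) ^ q) :=
    (sim_qExpand_normBeta hq hA hqM v hv).symm.trans h1
  rw [Sim, ← div_pow] at h2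
  exact near1_of_pow_char hq hA ((normable_coe hq hA v hv).div hsN) h2

end Fermat.Agent.S36.StepA
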