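import Fermat.Agent.S36.Abs.Count
import Fermat.Agent.GAL.Hecke.KummerNorm
import Fermat.Agent.GAL.FF.RH.Rational

/-!
# S36, STEP-A (iii) (abstract form)

`T` a nodal family of reductions of `F`; `i` a component all of whose neighbours lie in `J`; `κ` a class of
`V_m(F)` which is trivial on the components of `J`.  Then the reduction of `κ` at `i` is an honest class of
`V_m(Fb i)` (block ABS, weak slopes).  If `Fb i` is Galois over a rational subfield `k(t)` and every element of the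
Galois group is induced by an automorphism of `F` fixing `κ` then `[Fb i : k(t)] • κ` is trivial at `i`.
-/

set_option autoImplicit false

noncomputable section

namespace Fermat.Agent.S36.StepA

open AlgebraicCurve Fermat.Agent.Lib.RR Fermat.Agent.GAL Fermat.Agent.GAL.RED Fermat.Agent.DR.Abs
  Fermat.Agent.S36.Abs IntermediateField

section Rational

variable {k E : Type*} [Field k] [IsAlgClosed k] [Field E] [Algebra k E] [IsFF k E]

/-- **(L1)** on a curve of genus `0` every Kummer unit is an `m`-th power. -/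
theorem exists_pow_eq_of_genus_zero (hg : genusFF k E = 0) {m : ℕ} (hm : 0 < m) (u : Eˣ)
    (hu : u ∈ kummerUnits k E m) : ∃ v : Eˣ, v ^ m = u := by
  obtain ⟨D, hD, hdeg⟩ := exists_divisor_of_dvd hm (u : E) hu
  obtain ⟨f, hf0, hf⟩ := exists_effective (K := k) (F := E) (D := D) (by rw [hg, hdeg]; simp)
  have hfD : f ∈ riemannRochSpace D := mem_L_iff.2 (Or.inr hf)
  have hDf := eq_neg_divOf_of_degree_zero hdeg hf0 hfD
  -- `u * f ^ m` has trivial divisor
  have h0 : divOf (K := k) ((u : E) * f ^ m) = 0 := by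
    rw [divOf_mul u.ne_zero (pow_ne_zero _ hf0), divOf_pow, hD, hDf]
    simp
  have hmem : (u : E) * f ^ m ∈ riemannRochSpace (0 : Divisor k E) :=
    mem_L_iff.2 (Or.inr (by rw [h0, add_zero]))
  have halg := isAlgebraic_of_mem_L_zero hmem
  obtain ⟨c, hc⟩ := minpoly.mem_range_of_degree_eq_one k ((u : E) * f ^ m)
    (IsAlgClosed.degree_eq_one_of_irreducible k (minpoly.irreducible halg.isIntegral))
  obtain ⟨e, he⟩ := IsAlgClosed.exists_pow_nat_eq c hm
  have hc0 : c ≠ 0 := by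
    rintro rfl
    rw [map_zero] at hc
    exact mul_ne_zero u.ne_zero (pow_ne_zero _ hf0) hc.symm
  have he0 : e ≠ 0 := by
    rintro rfl
    rw [zero_pow hm.ne'] at he
    exact hc0 he.symm
  refine ⟨Units.mk0 (algebraMap k E e / f) (div_ne_zero ((map_ne_zero _).2 he0) hf0), ?_⟩
  apply Units.ext
  rw [Units.val_pow_eq_pow_val, Units.val_mk0, div_pow, ← map_pow, he, hc,
    mul_div_cancel_right₀ _ (pow_ne_zero _ hf0)]

end Rational

section Galois

variable {k L : Type*} [Field k] [IsAlgClosed k] [Field L] [Algebra k L]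

/-- **(L2)** a class of `V_m(L)` invariant under `Gal(L / k(t))` is killed by `[L : k(t)]`. -/
theorem exists_pow_eq_of_invariant (t : L) (ht : Transcendental k t) [FiniteDimensional k⟮t⟯ L]
    [IsGalois k⟮t⟯ L] {m : ℕ} (hm : 0 < m) (u : Lˣ) (hu : u ∈ kummerUnits k L m)
    (hinv : ∀ σ : L ≃ₐ[k⟮t⟯] L, ∃ v : L, σ (u : L) = (u : L) * v ^ m) :
    ∃ v : Lˣ, v ^ m = u ^ (Module.finrank k⟮t⟯ L) := by
  classical
  have := FF.isFF_adjoin (k := k) t ht
  have hN := Hecke.norm_mem_kummerUnits (K := k) (F := k⟮t⟯) (F' := L) hu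
  obtain ⟨w, hw⟩ := exists_pow_eq_of_genus_zero (FF.genusFF_adjoin (k := k) t ht) hm _ hN
  have hw' : (w : k⟮t⟯) ^ m = Algebra.norm k⟮t⟯ (u : L) := by
    have := congrArg Units.val hw
    rwa [Units.val_pow_eq_pow_val] at this
  choose v hv using hinv
  have h1 := Algebra.norm_eq_prod_automorphisms k⟮t⟯ (u : L)
  rw [← hw', Finset.prod_congr rfl (fun σ _ => hv σ), Finset.prod_mul_distrib, Finset.prod_const,
    Finset.card_univ, ← Nat.card_eq_fintype_card, IsGalois.card_aut_eq_finrank,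
    Finset.prod_pow, map_pow] at h1
  have hv0 : ∏ σ, v σ ≠ 0 := by
    intro h0
    rw [h0, zero_pow hm.ne', mul_zero] at h1
    exact pow_ne_zero _ ((map_ne_zero _).2 w.ne_zero) h1
  refine ⟨Units.mk0 (algebraMap k⟮t⟯ L w / ∏ σ, v σ)
    (div_ne_zero ((map_ne_zero _).2 w.ne_zero) hv0), ?_⟩
  apply Units.ext
  rw [Units.val_pow_eq_pow_val, Units.val_mk0, Units.val_pow_eq_pow_val, div_pow, h1,
    mul_div_cancel_right₀ _ (pow_ne_zero _ hv0)]

end Galois

section Multi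

variable {K F k : Type*} [Field K] [Field F] [Algebra K F] [Field k] {ι : Type*}
  {Fb : ι → Type*} [∀ i, Field (Fb i)] [∀ i, Algebra k (Fb i)] {E : Type*}
  [IsFF K F] [IsAlgClosed K] [∀ i, IsFF k (Fb i)] [IsAlgClosed k] [Fintype ι] [Fintype E]

/-- the reduction at `i` of a class which is trivial at all the neighbours of `i`. -/
theorem red_mem_kummerUnits_of_neighbours {T : MultiRed K F k Fb} {x : F} {N : NodeData k Fb E}
    {a₀ : ℕ} (h : IsPreNodal T x N a₀) (hsc : HasScales T) {m : ℕ} (hm : (m : k) ≠ 0) (i : ι)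
    (J : Set ι) (hJ₁ : ∀ e, N.i₁ e = i → N.i₂ e ∈ J) (hJ₂ : ∀ e, N.i₂ e = i → N.i₁ e ∈ J)
    {f : kummerUnits K F m} (hκ : KV.mk f ∈ Ksub T m J) (hf : ∀ j, T.red ((f : Fˣ) : F) j ≠ 0) :
    Units.mk0 _ (hf i) ∈ kummerUnits k (Fb i) m := by
  intro P
  refine red_mem_unitsOff h hsc hm i hκ hf P ?_
  rintro ⟨e, ⟨h1, h2⟩ | ⟨h1, h2⟩⟩
  · exact h2 (hJ₁ e (congrArg Sigma.fst h1).symm)
  · exact h2 (hJ₂ e (congrArg Sigma.fst h1).symm)

/-- **STEP-A (iii), abstract form.** -/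
theorem nsmul_mem_Kat_of_invariant {T : MultiRed K F k Fb} {x : F} {N : NodeData k Fb E} {a₀ : ℕ}
    (h : IsPreNodal T x N a₀) (hsc : HasScales T) {m : ℕ} (hm : (m : k) ≠ 0) (i : ι) (J : Set ι)
    (hJ₁ : ∀ e, N.i₁ e = i → N.i₂ e ∈ J) (hJ₂ : ∀ e, N.i₂ e = i → N.i₁ e ∈ J)
    (κ : KV K F m) (hκ : κ ∈ Ksub T m J)
    (t : Fb i) (ht : Transcendental k t) [FiniteDimensional k⟮t⟯ (Fb i)] [IsGalois k⟮t⟯ (Fb i)]
    (hI : ∀ σ : Fb i ≃ₐ[k⟮t⟯] Fb i, ∃ g : SemilinearAut K F, g • κ = κ ∧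
      ∀ y ∈ (T.R i).O, (T.R i).red (g • y) = σ ((T.R i).red y)) :
    Module.finrank k⟮t⟯ (Fb i) • κ ∈ Kat T m i := by
  have hm0 : 0 < m := Nat.pos_of_ne_zero (by rintro rfl; simp at hm)
  obtain ⟨f, rfl, hf⟩ := Count_exists_good_rep h.sep hsc hm0 κ
  set f0 : F := ((f : Fˣ) : F) with hf0
  have hfi : (T.R i).red f0 ≠ 0 := hf i
  have hfO : f0 ∈ (T.R i).O := (T.R i).mem_of_red_ne_zero hfi
  have hU := red_mem_kummerUnits_of_neighbours h hsc hm i J hJ₁ hJ₂ hκ hf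
  have hinv : ∀ σ : Fb i ≃ₐ[k⟮t⟯] Fb i, ∃ v : Fb i,
      σ ((Units.mk0 _ (hf i) : (Fb i)ˣ) : Fb i) = ((Units.mk0 _ (hf i) : (Fb i)ˣ) : Fb i) * v ^ m := by
    intro σ
    obtain ⟨g, hg, hred⟩ := hI σ
    rw [KV.semilinear_smul_mk, KV.mk_eq_mk_iff] at hg
    obtain ⟨y, hy⟩ := hg
    have hy' : (y : F) ^ m * f0 = g • f0 := by
      have := congrArg Units.val hy
      rwa [Units.val_mul, Units.val_pow_eq_pow_val] at this
    obtain ⟨a, ha0, haw⟩ := hsc i (y : F) y.ne_zero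
    have hwO := (T.R i).mem_of_red_ne_zero haw
    have hgf : (T.R i).red (g • f0) = σ ((T.R i).red f0) := hred f0 hfO
    have hgf0 : (T.R i).red (g • f0) ≠ 0 := by rw [hgf]; exact (map_ne_zero _).2 hfi
    have hgf00 : g • f0 ≠ 0 := by
      intro h0
      rw [h0, (T.R i).red_zero] at hgf0
      exact hgf0 rfl
    have e2 : algebraMap K F (a ^ m) = (a • (y : F)) ^ m * f0 * (g • f0)⁻¹ := by
      rw [← hy', Algebra.smul_def, map_pow, mul_pow, mul_assoc, mul_assoc,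
        ← mul_assoc ((y : F) ^ m), mul_inv_cancel₀ (by rw [hy']; exact hgf00), mul_one]
    have e3 : (T.R i).red (algebraMap K F (a ^ m)) =
        (T.R i).red (a • (y : F)) ^ m * (T.R i).red f0 * (σ ((T.R i).red f0))⁻¹ := by
      rw [e2, (T.R i).red_mul (mul_mem (pow_mem hwO m) hfO) ((T.R i).inv_mem_of_red_ne_zero hgf0),
        (T.R i).red_mul (pow_mem hwO m) hfO, (T.R i).red_pow, (T.R i).red_inv, hgf]
    rw [(T.R i).red_algebraMap'] at e3
    set c : k := (T.R i).redA (a ^ m) with hc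
    have hσ0 : σ ((T.R i).red f0) ≠ 0 := (map_ne_zero _).2 hfi
    have hc0 : c ≠ 0 := by
      intro h0
      rw [h0, map_zero] at e3
      exact mul_ne_zero (mul_ne_zero (pow_ne_zero _ haw) hfi) (inv_ne_zero hσ0) e3.symm
    obtain ⟨c', hc'⟩ := IsAlgClosed.exists_pow_nat_eq c hm0
    have hc'0 : c' ≠ 0 := by
      rintro rfl
      rw [zero_pow hm0.ne'] at hc'
      exact hc0 hc'.symm
    refine ⟨(T.R i).red (a • (y : F)) / algebraMap k (Fb i) c', ?_⟩
    show σ ((T.R i).red f0) = (T.R i).red f0 * _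
    have hA0 : algebraMap k (Fb i) c' ^ m ≠ 0 := pow_ne_zero _ ((map_ne_zero _).2 hc'0)
    rw [div_pow, ← mul_div_assoc, eq_div_iff hA0, ← map_pow, hc', e3]
    field_simp
  obtain ⟨v, hv⟩ := exists_pow_eq_of_invariant t ht hm0 _ hU hinv
  have hv' : (v : Fb i) ^ m = (T.R i).red f0 ^ (Module.finrank k⟮t⟯ (Fb i)) := by
    have := congrArg Units.val hv
    rwa [Units.val_pow_eq_pow_val, Units.val_pow_eq_pow_val] at this
  obtain ⟨w, hwO, hw⟩ := (T.R i).exists_lift (v : Fb i)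
  have hw0 : w ≠ 0 := by
    rintro rfl
    rw [(T.R i).red_zero] at hw
    exact v.ne_zero hw.symm
  refine ⟨f ^ (Module.finrank k⟮t⟯ (Fb i)) * ⟨((Units.mk0 w hw0)⁻¹) ^ m, pow_mem_kummerUnits m _⟩,
    ?_, ?_⟩
  · rw [KV.mk_mul, KV.mk_pow, add_eq_left, KV.mk_eq_zero_iff]
    exact ⟨_, rfl⟩
  · show (T.R i).red (f0 ^ (Module.finrank k⟮t⟯ (Fb i)) * (((Units.mk0 w hw0)⁻¹ ^ m : Fˣ) : F)) = 1
    have hwi : (T.R i).red w ≠ 0 := by rw [hw]; exact v.ne_zero
    rw [Units.val_pow_eq_pow_val, Units.val_inv_eq_inv_val, Units.val_mk0,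
      (T.R i).red_mul (pow_mem hfO _) (pow_mem ((T.R i).inv_mem_of_red_ne_zero hwi) _),
      (T.R i).red_pow, (T.R i).red_pow, (T.R i).red_inv, hw, ← hv', inv_pow,
      mul_inv_cancel₀ (pow_ne_zero _ v.ne_zero)]

end Multi

end Fermat.Agent.S36.StepA
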