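import Fermat.Agent.S36.Geo.HMain

/-!
# S36, STEP-A, concrete part for the horizontal components `H_e`

For `V` the horizontal valuation of an `HInput`:
* `HInput.exists_scale` : every nonzero function is a constant times a unit of `V.O`;
* `ValOver_exists_resMap` : the map induced on the residue field by a semilinear automorphism;
* `HInput.galois_induced` : `V.Res / k(t)`, `t = ab / bb`, is Galois of degree `q + 1` and all its
  automorphisms are induced by semilinear automorphisms `σ` with `σ ϖ = ζ ϖ`.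
-/

set_option autoImplicit false

namespace Fermat.Agent.S36.StepA

open AlgebraicCurve Fermat.Agent.Lib.RR Fermat.Agent.GAL.RED Fermat.Agent.S36.Val
  Fermat.Agent.S36.Geo Polynomial IntermediateField

section Scale

variable {E F : Type*} [Field E] [Field F] [Algebra E F] {ι : Type*} [Fintype ι]
  {OE : ValuationSubring E} {O : ValuationSubring F} {b : ι → F}

/-- a residually independent spanning family: the value groups coincide. -/
theorem HorConc_resIndep_scale (hO : O.comap (algebraMap E F) = OE) (h : ResIndep OE O b)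
    (hspan : Submodule.span E (Set.range b) = ⊤) {w : F} (hw : w ≠ 0) :
    ∃ u : E, u ≠ 0 ∧ algebraMap E F u * w ∈ O ∧ algebraMap E F u * w ∉ O.nonunits := by
  have hwm : w ∈ Submodule.span E (Set.range b) := hspan ▸ Submodule.mem_top
  obtain ⟨c, rfl⟩ := (Submodule.mem_span_range_iff_exists_fun E).mp hwm
  have hex : ∃ j, c j ≠ 0 := by
    by_contra hcon
    push Not at hcon
    exact hw (Finset.sum_eq_zero fun i _ => by rw [hcon i, zero_smul])
  obtain ⟨j, hj⟩ := hex
  obtain ⟨i₀, -, hi₀⟩ := Finset.exists_max_image Finset.univ (fun i => OE.valuation (c i))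
    ⟨j, Finset.mem_univ j⟩
  have hvj : OE.valuation (c j) ≠ 0 := (Valuation.ne_zero_iff _).mpr hj
  have hv0 : OE.valuation (c i₀) ≠ 0 := by
    intro h0
    have := hi₀ j (Finset.mem_univ j)
    rw [h0] at this
    exact hvj (le_antisymm this zero_le)
  have hc0 : c i₀ ≠ 0 := (Valuation.ne_zero_iff _).mp hv0
  have hd : ∀ i, (c i₀)⁻¹ * c i ∈ OE := by
    intro i
    rw [← ValuationSubring.valuation_le_one_iff, map_mul, map_inv₀,
      inv_mul_le_iff₀ (zero_lt_iff.mpr hv0), mul_one]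
    exact hi₀ i (Finset.mem_univ i)
  have hsum : algebraMap E F (c i₀)⁻¹ * ∑ i, c i • b i = ∑ i, ((c i₀)⁻¹ * c i) • b i := by
    rw [Finset.mul_sum]
    refine Finset.sum_congr rfl fun i _ => ?_
    rw [mul_smul, Algebra.smul_def (c i₀)⁻¹]
  refine ⟨(c i₀)⁻¹, inv_ne_zero hc0, ?_, ?_⟩
  · rw [hsum]
    exact (h.sum_mem_iff hO _).mpr hd
  · rw [hsum]
    intro hn
    have := (h.sum_mem_nonunits_iff hO _).mp hn i₀
    rw [inv_mul_cancel₀ hc0] at this
    exact ResIndep_one_notMem_nonunits OE this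

end Scale

section Lift

/-- roots of unity of the residue field lift. -/
theorem HorConc_exists_root_lift {K : Type*} [Field K] [IsAlgClosed K] (A : ValuationSubring K)
    {n : ℕ} (hn : 0 < n) (z : IsLocalRing.ResidueField ↥A) (hz : z ^ n = 1) :
    ∃ (ζ : K) (hζ : ζ ∈ A), ζ ^ n = 1 ∧ IsLocalRing.residue ↥A ⟨ζ, hζ⟩ = z := by
  obtain ⟨⟨a, ha⟩, rfl⟩ := IsLocalRing.residue_surjective z
  have hmem : ∀ (y : K) (hy : y ∈ A), IsLocalRing.residue ↥A ⟨y, hy⟩ = 0 ↔ A.valuation y < 1 := by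
    intro y hy
    rw [IsLocalRing.residue_eq_zero_iff]
    exact ValuationSubring.valuation_lt_one_iff A ⟨y, hy⟩
  have h1 : A.valuation (1 - a ^ n) < 1 := by
    rw [← hmem _ (A.sub_mem A.one_mem (A.pow_mem ha n))]
    have : (⟨1 - a ^ n, A.sub_mem A.one_mem (A.pow_mem ha n)⟩ : ↥A) = 1 - ⟨a, ha⟩ ^ n := rfl
    rw [this, map_sub, map_one, map_pow, hz, sub_self]
  have hva : A.valuation a = 1 := by
    have h2 : A.valuation (a ^ n) = 1 := by
      have h3 : a ^ n = 1 - (1 - a ^ n) := by ring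
      rw [h3]
      exact Valuation.map_one_sub_of_lt _ h1
    rw [map_pow] at h2
    exact (pow_eq_one_iff_of_nonneg zero_le hn.ne').1 h2
  have ha0 : a ≠ 0 := by
    intro h0
    rw [h0, map_zero] at hva
    exact zero_ne_one hva
  set p : K[X] := X ^ n - C (a ^ n) with hp
  have hmon : p.Monic := monic_X_pow_sub_C _ hn.ne'
  have heval := (IsAlgClosed.splits p).eval_eq_prod_roots_of_monic hmon 1
  have he1 : p.eval 1 = 1 - a ^ n := by simp [hp]
  rw [he1] at heval
  have hex : ∃ u ∈ p.roots, A.valuation (1 - u) < 1 := by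
    by_contra hcon
    push Not at hcon
    have : 1 ≤ A.valuation ((p.roots.map (1 - ·)).prod) := by
      rw [map_multiset_prod, Multiset.map_map]
      refine Multiset.one_le_prod ?_
      intro v hv
      obtain ⟨u, hu, rfl⟩ := Multiset.mem_map.1 hv
      exact hcon u hu
    rw [← heval] at this
    exact absurd h1 (not_lt.mpr this)
  obtain ⟨u, hu, hu1⟩ := hex
  have hun : u ^ n = a ^ n := by
    have := (mem_roots hmon.ne_zero).1 hu
    rw [IsRoot.def, hp, eval_sub, eval_pow, eval_X, eval_C, sub_eq_zero] at this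
    exact this
  have hvu : A.valuation u = 1 := by
    have h3 : u = 1 - (1 - u) := by ring
    rw [h3]
    exact Valuation.map_one_sub_of_lt _ hu1
  have hu0 : u ≠ 0 := by
    intro h0
    rw [h0, map_zero] at hvu
    exact zero_ne_one hvu
  have hζv : A.valuation (a / u) = 1 := by rw [map_div₀, hva, hvu, div_one]
  have hζA : a / u ∈ A := (A.valuation_le_one_iff _).1 hζv.le
  refine ⟨a / u, hζA, by rw [div_pow, hun, div_self (pow_ne_zero n ha0)], ?_⟩
  rw [← sub_eq_zero, ← map_sub]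
  have : (⟨a / u, hζA⟩ - ⟨a, ha⟩ : ↥A) = ⟨a / u - a, A.sub_mem hζA ha⟩ := rfl
  rw [this, hmem]
  have h4 : a / u - a = a / u * (1 - u) := by field_simp
  rw [h4, map_mul, hζv, one_mul]
  exact hu1

end Lift

section ResMap

variable {K F : Type*} [Field K] [Field F] [Algebra K F] {A : ValuationSubring K}

/-- the map induced on the residue field by a semilinear automorphism preserving `V.O` and acting trivially on
the residue field of `A`. -/
theorem ValOver_exists_resMap (V : ValOver A F) (σ : F ≃+* F) (σ₀ : K ≃+* K)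
    (hσ : ∀ a, σ (algebraMap K F a) = algebraMap K F (σ₀ a))
    (hO : ∀ y, σ y ∈ V.O ↔ y ∈ V.O) (hres : ∀ a ∈ A, σ₀ a - a ∈ A.nonunits) :
    ∃ G : V.Res →ₐ[IsLocalRing.ResidueField ↥A] V.Res, ∀ y ∈ V.O, V.red (σ y) = G (V.red y) := by
  let g : ↥V.O →+* ↥V.O :=
    ((σ : F →+* F).comp V.O.subtype).codRestrict V.O.toSubring (fun y => (hO y).2 y.2)
  have hg : ∀ y : ↥V.O, ((g y : ↥V.O) : F) = σ y := fun _ => rfl
  have : IsLocalHom g := by
    constructor
    intro y hy
    obtain ⟨⟨b, hb⟩, hyb⟩ := isUnit_iff_exists_inv.mp hy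
    have h1 : σ (y : F) * b = 1 := congrArg Subtype.val hyb
    have h2 : (y : F) * σ.symm b = 1 := by
      apply σ.injective
      rw [map_mul, RingEquiv.apply_symm_apply, h1, map_one]
    have h3 : σ.symm b ∈ V.O := by
      rw [← hO, RingEquiv.apply_symm_apply]
      exact hb
    exact isUnit_iff_exists_inv.mpr ⟨⟨_, h3⟩, Subtype.ext h2⟩
  let G0 : V.Res →+* V.Res := IsLocalRing.ResidueField.map g
  have hG0 : ∀ y : ↥V.O, G0 (V.res y) = V.res (g y) := fun _ => rfl
  refine ⟨{ G0 with commutes' := ?_ }, ?_⟩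
  · intro c
    obtain ⟨⟨a, ha⟩, rfl⟩ := IsLocalRing.residue_surjective c
    show G0 _ = _
    rw [← V.res_incl, hG0]
    have ha' : σ₀ a ∈ A := by
      have := A.add_mem _ _ (ValuationSubring.nonunits_subset (hres a ha)) ha
      rwa [sub_add_cancel] at this
    have h1 : g (V.incl ⟨a, ha⟩) = V.incl ⟨σ₀ a, ha'⟩ := Subtype.ext (hσ a)
    rw [h1, V.res_incl, V.res_incl]
    congr 1
    rw [← sub_eq_zero, ← map_sub, IsLocalRing.residue_eq_zero_iff]
    have := hres a ha
    rw [ValuationSubring.mem_nonunits_iff_exists_mem_maximalIdeal] at this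
    obtain ⟨_, h2⟩ := this
    exact h2
  · intro y hy
    show _ = G0 _
    rw [V.red_of_mem hy, hG0, V.red_of_mem ((hO y).2 hy)]
    rfl

end ResMap

section H

variable {K E F k Eb : Type*} [Field K] [Field E] [Field F] [Algebra K E] [Algebra E F] [Algebra K F]
  [IsScalarTower K E F] [Field k] [Field Eb] [Algebra k Eb]
  [IsFF K E] [IsAlgClosed K] [IsFF k Eb] [IsAlgClosed k]
variable {R : RedData K E k Eb} {r : Place K E → Place k Eb} {e : Place k Eb} {q : ℕ}
  {ϖ : K} {x : E} {g rr ss : ℕ → E} {c : K} {x₀ x₂ : F}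

theorem HorConc_val_eq_one {L : Type*} [Field L] (O : ValuationSubring L) {z : L} (h1 : z ∈ O)
    (h2 : z ∉ O.nonunits) : O.valuation z = 1 := by
  rw [ValuationSubring.mem_nonunits_iff, not_lt] at h2
  exact le_antisymm ((O.valuation_le_one_iff z).2 h1) h2

/-- **(H1)** scales on `H_e`. -/
theorem HInput_exists_scale [Fact q.Prime] [CharP (IsLocalRing.ResidueField ↥R.A) q]
    (h : HInput R r e q ϖ x g rr ss c x₀ x₂) (hr : IsRedMap R r) (hC : R.IsCartesian)
    (V : ValOver R.A F) (hV : IsHVal R r e q ϖ x V) {w : F} (hw : w ≠ 0) :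
    ∃ a : K, a ≠ 0 ∧ V.redData.red (a • w) ≠ 0 := by
  have hq : 2 ≤ q := (Fact.out : q.Prime).two_le
  have T := h.hTower hq hr hC hV
  obtain ⟨u, hu0, hu1, hu2⟩ := HorConc_resIndep_scale (OE := V.O.comap (algebraMap E F)) rfl
    (T.resIndep V rfl) (T.span_monom V rfl) hw
  obtain ⟨η, hη0, hη1, hη2⟩ := IsDiscVal.exists_scale hV hr hC h.disc (inv_ne_zero hu0)
  refine ⟨η, hη0, ?_⟩
  have e1 : η • w = algebraMap E F (algebraMap K E η * u⁻¹) * (algebraMap E F u * w) := by
    rw [Algebra.smul_def, IsScalarTower.algebraMap_apply K E F, map_mul, map_inv₀]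
    have : algebraMap E F u ≠ 0 := (_root_.map_ne_zero _).2 hu0
    field_simp
  have hη2' : algebraMap E F (algebraMap K E η * u⁻¹) ∉ V.O.nonunits := by
    rw [← mem_nonunits_comap_iff]
    exact hη2
  have v1 := HorConc_val_eq_one V.O hη1 hη2'
  have v2 := HorConc_val_eq_one V.O hu1 hu2
  have v3 : V.O.valuation (η • w) = 1 := by rw [e1, map_mul, v1, v2, one_mul]
  have hmem : η • w ∈ V.O := (V.O.valuation_le_one_iff _).1 v3.le
  intro h0
  have := (V.red_eq_zero_iff hmem).1 h0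
  rw [ValuationSubring.mem_nonunits_iff, v3] at this
  exact lt_irrefl _ this

/-- **(H2)** `V.Res / k(t)`, `t = ab / bb`, is Galois of degree `q + 1`, and all its automorphisms are induced by
semilinear automorphisms of `F` (those of the class `P`, provided that `P` contains, for every
`(q+1)`-th root of unity `ζ`, an automorphism as in `HInput.map_eq`, with `σ₀ ϖ = ζ ϖ`, which fixes `x₀`,
`x₂` and is trivial on the residue field of `A`). -/
theorem HInput_galois_induced [Fact q.Prime] [CharP (IsLocalRing.ResidueField ↥R.A) q]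
    [IsAlgClosed (IsLocalRing.ResidueField ↥R.A)]
    (h : HInput R r e q ϖ x g rr ss c x₀ x₂) (hr : IsRedMap R r) (hC : R.IsCartesian)
    (V : ValOver R.A F) (hV : IsHVal R r e q ϖ x V) (P : (F ≃+* F) → Prop)
    (hP : ∀ ζ : K, ζ ^ (q + 1) = 1 → ∃ (σ : F ≃+* F) (σE : E ≃+* E) (σ₀ : K ≃+* K), P σ ∧
      (∀ a, σ (algebraMap K F a) = algebraMap K F (σ₀ a)) ∧
      (∀ f, σ (algebraMap E F f) = algebraMap E F (σE f)) ∧
      (∀ a, σ₀ a ∈ R.A ↔ a ∈ R.A) ∧ (∀ a ∈ R.A, σ₀ a - a ∈ R.A.nonunits) ∧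
      (∀ f, σE f ∈ discRing R r e ↔ f ∈ discRing R r e) ∧ σE x = x ∧ σ₀ ϖ = ζ * ϖ ∧
      σ x₀ = x₀ ∧ σ x₂ = x₂) :
    ∃ t : V.Res, Transcendental (IsLocalRing.ResidueField ↥R.A) t ∧
      ∃ (_ : FiniteDimensional (IsLocalRing.ResidueField ↥R.A)⟮t⟯ V.Res)
        (_ : IsGalois (IsLocalRing.ResidueField ↥R.A)⟮t⟯ V.Res),
        Module.finrank (IsLocalRing.ResidueField ↥R.A)⟮t⟯ V.Res = q + 1 ∧
        ∀ γ : V.Res ≃ₐ[(IsLocalRing.ResidueField ↥R.A)⟮t⟯] V.Res, ∃ σ : F ≃+* F, P σ ∧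
          ∀ y ∈ V.O, V.red (σ y) = γ (V.red y) := by
  obtain ⟨hH, hgen⟩ := h.isHCurve hr hC V hV
  have hq : 2 ≤ q := (Fact.out : q.Prime).two_le
  have T := h.hTower hq hr hC hV
  have haO := T.a_mem V rfl
  have hbO := T.b_mem V rfl
  set ab : V.Res := V.red ((algebraMap K F ϖ)⁻¹ * x₀) with hab
  set bb : V.Res := V.red ((algebraMap K F ϖ)⁻¹ * x₂) with hbb
  have hFF := hH.isFF hgen
  have hfd := hH.finiteDimensional_t hgen
  have hgal : IsGalois (IsLocalRing.ResidueField ↥R.A)⟮hH.t⟯ V.Res :=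
    isGalois_iff.2 ⟨hH.isSeparable_t hgen, hH.HAut_normal hgen⟩
  refine ⟨hH.t, hH.trans_t, hfd, hgal, hH.finrank_t hgen, fun γ => ?_⟩
  -- the scalar
  have h2 : (γ bb / bb) ^ (q + 1) = 1 := by
    have h3 : γ (bb ^ (q + 1)) = bb ^ (q + 1) := γ.commutes ⟨bb ^ (q + 1), hH.HAut_pow_mem⟩
    rw [div_pow, ← map_pow, h3, div_self (pow_ne_zero _ hH.b_ne)]
  have hint : IsIntegral (IsLocalRing.ResidueField ↥R.A) (γ bb / bb) :=
    ⟨X ^ (q + 1) - 1, monic_X_pow_sub_C 1 (Nat.succ_ne_zero q), by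
      rw [eval₂_sub, eval₂_pow, eval₂_X, eval₂_one, h2, sub_self]⟩
  obtain ⟨z, hz⟩ := minpoly.mem_range_of_degree_eq_one (IsLocalRing.ResidueField ↥R.A) (γ bb / bb)
    (IsAlgClosed.degree_eq_one_of_irreducible _ (minpoly.irreducible hint))
  have h4 : γ bb = z • bb := by
    rw [Algebra.smul_def, hz, div_mul_cancel₀ _ hH.b_ne]
  have h5 : γ ab = z • ab := hH.HAut_map_a γ z h4
  have hz1 : z ^ (q + 1) = 1 := by
    apply (algebraMap (IsLocalRing.ResidueField ↥R.A) V.Res).injective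
    rw [map_pow, hz, h2, map_one]
  have hz0 : z ≠ 0 := by
    intro h0
    rw [h0, zero_pow (Nat.succ_ne_zero q)] at hz1
    exact zero_ne_one hz1
  obtain ⟨ζ, hζA, hζ1, hζz⟩ := HorConc_exists_root_lift R.A (Nat.succ_pos q) z⁻¹
    (by rw [inv_pow, hz1, inv_one])
  have hζ0 : ζ ≠ 0 := by
    intro h0
    rw [h0, zero_pow (Nat.succ_ne_zero q)] at hζ1
    exact zero_ne_one hζ1
  have hζinv : ζ⁻¹ ∈ R.A := by
    have : ζ⁻¹ = ζ ^ q := by
      apply inv_eq_of_mul_eq_one_right
      rw [← pow_succ', hζ1]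
    rw [this]
    exact R.A.pow_mem hζA q
  have hζn : ζ ∉ R.A.nonunits := by
    rw [HMain_mem_nonunits_iff, not_or, not_not]
    exact ⟨hζ0, hζinv⟩
  have hζz' : IsLocalRing.residue ↥R.A ⟨ζ⁻¹, hζinv⟩ = z := by
    have h6 : IsLocalRing.residue ↥R.A ⟨ζ⁻¹, hζinv⟩ * IsLocalRing.residue ↥R.A ⟨ζ, hζA⟩ = 1 := by
      rw [← map_mul]
      have : (⟨ζ⁻¹, hζinv⟩ * ⟨ζ, hζA⟩ : ↥R.A) = 1 := Subtype.ext (inv_mul_cancel₀ hζ0)
      rw [this, map_one]
    rw [hζz] at h6
    exact (eq_inv_of_mul_eq_one_left h6).trans (inv_inv z)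
  obtain ⟨σ, σE, σ₀, hPσ, hσ, hσE, hA, hres, hdisc, hx, hϖ, hx₀, hx₂⟩ := hP ζ hζ1
  refine ⟨σ, hPσ, ?_⟩
  have hmap := h.map_eq hr hC V hV σ σE σ₀ hσ hσE hA hdisc hx ζ hζA hζn hϖ
  have hO : ∀ y, σ y ∈ V.O ↔ y ∈ V.O := by
    intro y
    have h7 : σ y ∈ (V.map σ σ₀ hσ hA).O ↔ σ.symm (σ y) ∈ V.O := Iff.rfl
    rw [hmap, RingEquiv.symm_apply_apply] at h7
    exact h7
  obtain ⟨G, hG⟩ := ValOver_exists_resMap V σ σ₀ hσ hO hres
  have hsc : ∀ w : F, σ w = w → (algebraMap K F ϖ)⁻¹ * w ∈ V.O →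
      G (V.red ((algebraMap K F ϖ)⁻¹ * w)) = z • V.red ((algebraMap K F ϖ)⁻¹ * w) := by
    intro w hw hwO
    rw [← hG _ hwO, map_mul, map_inv₀, hσ, hϖ, hw, map_mul, mul_inv, mul_assoc, ← map_inv₀,
      V.red_mul (V.algebraMap_mem hζinv) hwO, V.red_algebraMap hζinv, hζz', Algebra.smul_def]
  let L : IntermediateField (IsLocalRing.ResidueField ↥R.A) V.Res :=
    { carrier := {u | G u = γ u}
      mul_mem' := fun {u v} hu hv => by
        show G (u * v) = γ (u * v)
        rw [map_mul, map_mul, hu, hv]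
      add_mem' := fun {u v} hu hv => by
        show G (u + v) = γ (u + v)
        rw [map_add, map_add, hu, hv]
      algebraMap_mem' := fun d => by
        show G (algebraMap _ _ d) = γ (algebraMap _ _ d)
        rw [G.commutes, IsScalarTower.algebraMap_apply (IsLocalRing.ResidueField ↥R.A)
          (IsLocalRing.ResidueField ↥R.A)⟮hH.t⟯ V.Res, γ.commutes]
      inv_mem' := fun u hu => by
        show G u⁻¹ = γ u⁻¹
        rw [map_inv₀, map_inv₀, hu] }
  have hL : (⊤ : IntermediateField (IsLocalRing.ResidueField ↥R.A) V.Res) ≤ L := by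
    rw [← hgen, IntermediateField.adjoin_le_iff]
    rintro u (rfl | rfl)
    · show G _ = γ _
      rw [hsc x₀ hx₀ haO]
      exact h5.symm
    · show G _ = γ _
      rw [hsc x₂ hx₂ hbO]
      exact h4.symm
  intro y hy
  rw [hG y hy]
  exact hL (IntermediateField.mem_top (x := V.red y))

end H

end Fermat.Agent.S36.StepA
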