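import Fermat.Agent.S36.StepA.Down
import Fermat.Agent.S36.StepA.Lvl2
import Fermat.Agent.S36.StepA.InertiaTrans
import Fermat.Agent.S36.Geo.GlueCor
import Fermat.Agent.S36.Glue.Interface
import Fermat.Agent.GAL.KVGalois

/-!
# S36, STEP-A (i), (i'), (ii)

For an embedding `φ : FN N → Kbar((t))` over `Kbar` let `KEmb A φ n` be the set of classes of
`V_n(FN N)` having a representative `f` with `φ f` a Gauss `1`-unit (`= ker` of the reduction at the
valuation `Gauss ∘ φ`).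

* `mem_KEmb_inf`  (i)  : `β_* x = 0 → x ∈ KEmb A val n`;
* `mem_KEmb_zero` (i') : `α_* x = 0 → x ∈ KEmb A (val ∘ W) n`, for every automorphism `W` with
  `N_β ∘ W = w' ∘ N_α` (`W = w_{q²}` or the Fricke involution);
* `mem_KEmb_mid`  (ii) : `α_* x = β_* x = 0`, `x` fixed by inertia `→ (q - 1) x ∈ KEmb A ι_ζ n`.
-/

set_option autoImplicit false

noncomputable section

namespace Fermat.Agent.S36.StepA

open AlgebraicCurve ModularCurve Fermat.Agent.S24 Fermat.Agent.GAL Fermat.Agent.GAL.Gauss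
  Fermat.Agent.GAL.Hecke Fermat.Agent.GAL.NormFormula Fermat.Agent.DR

variable (A : ValuationSubring Kbar)

/-- The classes which have a representative `f` with `φ f` a Gauss `1`-unit. -/
def KEmb {N : ℕ} (φ : FN N →+* LaurentSeries Kbar) (n : ℕ) : Set (KV Kbar (FN N) n) :=
  {x | ∃ f : kummerUnits Kbar (FN N) n, KV.mk f = x ∧ IsOne A (φ ((f : (FN N)ˣ) : FN N))}

variable {A}

theorem mk_mem_KEmb {N n : ℕ} (hn : 0 < n) (φ : FN N →+* LaurentSeries Kbar)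
    (hφ : ∀ c : Kbar, φ (algebraMap Kbar (FN N) c) = HahnSeries.C c)
    (u : kummerUnits Kbar (FN N) n) (v : FN N)
    (h : Sim A (φ ((u : (FN N)ˣ) : FN N)) (φ v ^ n)) : KV.mk u ∈ KEmb A φ n := by
  have hv0 : v ≠ 0 := by
    rintro rfl
    exact h.right_ne_zero (by rw [map_zero, zero_pow hn.ne'])
  obtain ⟨c, hc, h1⟩ := h
  obtain ⟨e, he⟩ := IsAlgClosed.exists_pow_nat_eq c hn
  have he0 : e ≠ 0 := by
    rintro rfl
    rw [zero_pow hn.ne'] at he
    exact hc he.symm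
  let w : (FN N)ˣ := Units.mk0 (algebraMap Kbar (FN N) e / v)
    (div_ne_zero ((map_ne_zero _).2 he0) hv0)
  refine ⟨u * ⟨w ^ n, pow_mem_kummerUnits n w⟩, ?_, ?_⟩
  · rw [KV.mk_eq_mk_iff]
    exact ⟨w, mul_comm _ _⟩
  · have e1 : φ (((u * ⟨w ^ n, pow_mem_kummerUnits n w⟩ : kummerUnits Kbar (FN N) n) : (FN N)ˣ) :
        FN N) = HahnSeries.C c * (φ ((u : (FN N)ˣ) : FN N) / φ v ^ n) := by
      show φ (((u : (FN N)ˣ) : FN N) * ((w ^ n : (FN N)ˣ) : FN N)) = _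
      rw [Units.val_pow_eq_pow_val, Units.val_mk0, map_mul, map_pow, map_div₀, hφ, div_pow,
        ← map_pow, he]
      ring
    rw [e1]
    exact h1

theorem valN_algebraMap (N : ℕ) (c : Kbar) :
    valN N (algebraMap Kbar (FN N) c) = HahnSeries.C c := by
  rw [valN_apply, IntermediateField.coe_algebraMap_apply, algebraMap_eq_C]

section General

variable {M q : ℕ} [NeZero M] [NeZero q]

theorem betaKV_mk (n : ℕ) (u : kummerUnits Kbar (FN (M * q)) n) :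
    betaKV M q n (KV.mk u) = KV.mk ⟨Units.map (normAlong (heckeBetaBar Kbar M q)) u,
      normAlong_mem_kummerUnits (heckeBetaBar Kbar M q) (finiteAlong_beta M q) u.2⟩ := rfl

theorem alphaKV_mk (n : ℕ) (u : kummerUnits Kbar (FN (M * q)) n) :
    alphaKV M q n (KV.mk u) = KV.mk ⟨Units.map (normAlong (heckeAlphaBar Kbar M q)) u,
      normAlong_mem_kummerUnits (heckeAlphaBar Kbar M q) (finiteAlong_alpha M q) u.2⟩ := rfl

/-- the element-level version of (i). -/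
theorem sim_of_normBeta_eq_pow (hq : q.Prime) (hA : A.LiesOverPrime q) (hqM : q ∣ M) {n : ℕ}
    (hn : 0 < n) (u : FN (M * q)) (hu : u ≠ 0) (y : FN M)
    (hy : y ^ n = normAlong (heckeBetaBar Kbar M q) u) :
    ∃ v : FN M, v ≠ 0 ∧ Sim A (u : LaurentSeries Kbar) ((v : LaurentSeries Kbar) ^ n) := by
  obtain ⟨σ, hσ⟩ := Lib.Frobenius.exists_isFrobeniusAt A hq hA
  have h := sim_down hq hA hqM σ hσ u hu
  rw [← hy, map_pow] at h
  refine ⟨gal M σ⁻¹ y, ?_, h⟩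
  rintro h0
  rw [h0] at h
  exact h.right_ne_zero (by rw [zero_pow hn.ne']; rfl)

/-- **STEP-A (i).** -/
theorem mem_KEmb_inf (hq : q.Prime) (hA : A.LiesOverPrime q) (hqM : q ∣ M) {n : ℕ} (hn : 0 < n)
    (x : KV Kbar (FN (M * q)) n) (hx : betaKV M q n x = 0) : x ∈ KEmb A (valN (M * q)) n := by
  obtain ⟨u, rfl⟩ := KV.mk_surjective x
  rw [betaKV_mk, KV.mk_eq_zero_iff] at hx
  obtain ⟨y, hy⟩ := hx
  obtain ⟨v, -, hv⟩ := sim_of_normBeta_eq_pow (A := A) hq hA hqM hn ((u : (FN (M * q))ˣ) : FN (M * q))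
    (Units.ne_zero _) (y : FN M) (by
      have := congrArg (Units.val) hy
      rwa [Units.val_pow_eq_pow_val] at this)
  refine mk_mem_KEmb hn _ (valN_algebraMap _) u (heckeAlphaBar Kbar M q v) ?_
  rw [valN_apply, valN_apply, coe_heckeAlphaBar]
  exact hv

/-- **STEP-A (i').**  `W` any automorphism with `N_β ∘ W = w' ∘ N_α`. -/
theorem mem_KEmb_zero (hq : q.Prime) (hA : A.LiesOverPrime q) (hqM : q ∣ M) {n : ℕ} (hn : 0 < n)
    (W : FN (M * q) ≃ₐ[Kbar] FN (M * q)) (w' : FN M →+* FN M)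
    (hW : ∀ u, normAlong (heckeBetaBar Kbar M q) (W u) = w' (normAlong (heckeAlphaBar Kbar M q) u))
    (x : KV Kbar (FN (M * q)) n) (hx : alphaKV M q n x = 0) :
    x ∈ KEmb A ((valN (M * q)).comp (W : FN (M * q) →+* FN (M * q))) n := by
  obtain ⟨u, rfl⟩ := KV.mk_surjective x
  rw [alphaKV_mk, KV.mk_eq_zero_iff] at hx
  obtain ⟨y, hy⟩ := hx
  have hy' : (y : FN M) ^ n = normAlong (heckeAlphaBar Kbar M q) ((u : (FN (M * q))ˣ) : FN (M * q)) := by
    have := congrArg (Units.val) hy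
    rwa [Units.val_pow_eq_pow_val] at this
  obtain ⟨v, -, hv⟩ := sim_of_normBeta_eq_pow (A := A) hq hA hqM hn
    (W ((u : (FN (M * q))ˣ) : FN (M * q))) ((map_ne_zero _).2 (Units.ne_zero _)) (w' (y : FN M)) (by
      rw [hW, ← hy', map_pow])
  refine mk_mem_KEmb hn _ (fun c => ?_) u (W.symm (heckeAlphaBar Kbar M q v)) ?_
  · show valN (M * q) (W (algebraMap Kbar _ c)) = _
    rw [AlgEquiv.commutes, valN_algebraMap]
  · show Sim A (valN (M * q) (W _)) (valN (M * q) (W (W.symm _)) ^ n)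
    rw [AlgEquiv.apply_symm_apply, valN_apply, valN_apply, coe_heckeAlphaBar]
    exact hv

end General

/-! ### the middle cusps -/

section Mid

variable {M q : ℕ} [NeZero M] [NeZero q]

theorem IsMid.congr {ζ ζ' : Kbar} {hζ0 : ζ ≠ 0} {hζ0' : ζ' ≠ 0}
    {ι : FN (M * q * q) →+* LaurentSeries Kbar} (h : IsMid M q ζ hζ0 ι) (e : ζ = ζ') :
    IsMid M q ζ' hζ0' ι := by
  subst e
  exact h

/-- `ι_{τ ζ} w ≈ ι_ζ (τ⁻¹ w)` for `τ` in the inertia group. -/
theorem IsMid.sim_inertia (hq : q.Prime) (hqM : ¬ q ∣ M) (hA : A.LiesOverPrime q) {ζ : Kbar}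
    {hζ0 : ζ ≠ 0} (hζ : ζ ^ q = 1) {ι : FN (M * q * q) →+* LaurentSeries Kbar}
    (h : IsMid M q ζ hζ0 ι) (τ : Kbar ≃ₐ[ℚ] Kbar) (hτ : τ ∈ A.inertiaSubgroupIn ℚ)
    {ι' : FN (M * q * q) →+* LaurentSeries Kbar}
    (h' : IsMid M q (τ ζ) ((map_ne_zero τ).2 hζ0) ι') (w : FN (M * q * q)) (hw : w ≠ 0) :
    Sim A (ι' w) (ι (gal (M * q * q) τ⁻¹ w)) := by
  have h1 := h.galois hq hqM τ h' (gal (M * q * q) τ⁻¹ w)
  have e : gal (M * q * q) τ (gal (M * q * q) τ⁻¹ w) = w := by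
    apply Subtype.ext
    rw [coe_arithmeticRingAut_apply, coe_arithmeticRingAut_apply, coeffMap_symm_apply]
  rw [e] at h1
  rw [← h1]
  exact near1_inertia_div (h.normable hq hA hζ _ ((map_ne_zero _).2 hw)) τ hτ

/-- **STEP-A (ii).** -/
theorem mem_KEmb_mid (hq : q.Prime) (hqM : ¬ q ∣ M) (hA : A.LiesOverPrime q) {n : ℕ} (hn : 0 < n)
    {ζ : Kbar} (hζ : IsPrimitiveRoot ζ q) {ι : FN (M * q * q) →+* LaurentSeries Kbar}
    (hι : IsMid M q ζ (hζ.ne_zero hq.ne_zero) ι) (x : KV Kbar (FN (M * q * q)) n)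
    (hI : ∀ σ ∈ A.inertiaSubgroupIn ℚ, σ • x = x) (hα : alphaKV (M * q) q n x = 0)
    (hβ : betaKV (M * q) q n x = 0) : (q - 1) • x ∈ KEmb A ι n := by
  classical
  have hζ0 := hζ.ne_zero hq.ne_zero
  obtain ⟨u, rfl⟩ := KV.mk_surjective x
  set u0 : FN (M * q * q) := ((u : (FN (M * q * q))ˣ) : FN (M * q * q)) with hu0
  have hu00 : u0 ≠ 0 := Units.ne_zero _
  rw [alphaKV_mk, KV.mk_eq_zero_iff] at hα
  obtain ⟨yA, hyA⟩ := hα
  have hyA' : (yA : FN (M * q)) ^ n = normAlong (a2 M q) u0 := by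
    have := congrArg (Units.val) hyA
    rwa [Units.val_pow_eq_pow_val] at this
  rw [betaKV_mk, KV.mk_eq_zero_iff] at hβ
  obtain ⟨yB, hyB⟩ := hβ
  have hyB' : (yB : FN (M * q)) ^ n = normAlong (b2 M q) u0 := by
    have := congrArg (Units.val) hyB
    rwa [Units.val_pow_eq_pow_val] at this
  -- (i)
  obtain ⟨v1, hv10, hv1⟩ := sim_of_normBeta_eq_pow (A := A) hq hA (Dvd.intro_left M rfl) hn u0 hu00
    (yB : FN (M * q)) hyB'
  -- choices
  have hch : ∀ i : ℕ, ∃ (ι' : FN (M * q * q) →+* LaurentSeries Kbar) (w : FN (M * q * q)),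
      (0 < i → i < q → IsMid M q (ζ ^ i) (pow_ne_zero _ hζ0) ι' ∧ w ≠ 0 ∧
        Sim A (ι' u0) (ι (u0 / w ^ n))) := by
    intro i
    by_cases hi : 0 < i ∧ i < q
    · obtain ⟨τ, hτ, hτζ⟩ := exists_inertia_zeta_pow A hq hA hζ hi.1 hi.2
      obtain ⟨ι', hι'⟩ := Geo.exists_mid hq hqM (hζ.pow_of_coprime i
        ((Nat.Prime.coprime_iff_not_dvd hq).2 (Nat.not_dvd_of_pos_of_lt hi.1 hi.2)).symm)
      have hι'' : IsMid M q (τ ζ) ((map_ne_zero τ).2 hζ0) ι' := hι'.congr hτζ.symm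
      -- invariance
      have h1 := hI τ hτ
      rw [KV.galois_smul_mk, KV.mk_eq_mk_iff] at h1
      obtain ⟨w, hw⟩ := h1
      have hw' : (w : FN (M * q * q)) ^ n * u0 = gal (M * q * q) τ u0 := by
        have := congrArg (Units.val) hw
        rwa [Units.val_mul, Units.val_pow_eq_pow_val] at this
      -- `u0 = τ⁻¹ (w^n u0)`
      have h2 := hι.sim_inertia hq hqM hA hζ.pow_eq_one τ hτ hι'' u0 hu00
      have e : gal (M * q * q) τ⁻¹ u0 = u0 / (gal (M * q * q) τ⁻¹ (w : FN (M * q * q))) ^ n := by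
        have e1 : gal (M * q * q) τ⁻¹ (gal (M * q * q) τ u0) = u0 := by
          apply Subtype.ext
          rw [coe_arithmeticRingAut_apply, coe_arithmeticRingAut_apply]
          have := coeffMap_symm_apply τ⁻¹ (u0 : LaurentSeries Kbar)
          rwa [inv_inv] at this
        rw [← hw', map_mul, map_pow] at e1
        rw [eq_div_iff (pow_ne_zero _ ((map_ne_zero _).2 (Units.ne_zero w)))]
        exact (mul_comm _ _).trans e1
      rw [e] at h2
      exact ⟨ι', gal (M * q * q) τ⁻¹ (w : FN (M * q * q)), fun _ _ =>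
        ⟨hι', (map_ne_zero _).2 (Units.ne_zero w), h2⟩⟩
    · exact ⟨ι, 1, fun h1 h2 => absurd ⟨h1, h2⟩ hi⟩
  choose ι' w hw using hch
  -- the norm formula
  have hNF := coe_normAlong_a2 hq hqM hζ ι' (fun i h1 h2 => (hw i h1 h2).1) u0
  rw [← hyA'] at hNF
  -- `∏ ι_i u ≈ ι (u^(q-1) / (∏ w)^n)`
  have hP : Sim A (∏ i ∈ Finset.Ioo 0 q, ι' i u0)
      (ι (u0 ^ (q - 1) / (∏ i ∈ Finset.Ioo 0 q, w i) ^ n)) := by
    have h1 := Sim.prod (A := A) (Finset.Ioo 0 q) (fun i => ι' i u0)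
      (fun i => ι (u0 / w i ^ n)) (fun i hi => by
        rw [Finset.mem_Ioo] at hi
        exact (hw i hi.1 hi.2).2.2)
    rw [← map_prod, Finset.prod_div_distrib, Finset.prod_const, Nat.card_Ioo, Nat.sub_zero,
      Finset.prod_pow] at h1
    exact h1
  -- `∏ ι_i u = y_A^n / u ≈ (y_A / v1)^n`
  have hu0s : (u0 : LaurentSeries Kbar) ≠ 0 := fun h => hu00 (Subtype.ext h)
  have hyA0 : ((yA : FN (M * q)) : LaurentSeries Kbar) ≠ 0 :=
    fun h => (Units.ne_zero yA) (Subtype.ext h)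
  have hQ : Sim A (∏ i ∈ Finset.Ioo 0 q, ι' i u0)
      (ι (a2 M q ((yA : FN (M * q)) / v1)) ^ n) := by
    have e : ∏ i ∈ Finset.Ioo 0 q, ι' i u0 =
        ((yA : FN (M * q)) : LaurentSeries Kbar) ^ n / (u0 : LaurentSeries Kbar) := by
      rw [eq_div_iff hu0s, mul_comm, ← hNF]
      rfl
    rw [e, hι.alpha]
    have e2 : ((((yA : FN (M * q)) / v1 : FN (M * q))) : LaurentSeries Kbar) ^ n =
        ((yA : FN (M * q)) : LaurentSeries Kbar) ^ n / ((v1 : LaurentSeries Kbar) ^ n) := by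
      rw [← div_pow]; rfl
    rw [e2]
    exact (Sim.refl (pow_ne_zero _ hyA0)).div hv1
  -- conclusion
  have hW0 : (∏ i ∈ Finset.Ioo 0 q, w i) ≠ 0 := by
    rw [Finset.prod_ne_zero_iff]
    intro i hi
    rw [Finset.mem_Ioo] at hi
    exact (hw i hi.1 hi.2).2.1
  have hfin : Sim A (ι (u0 ^ (q - 1)))
      (ι (a2 M q ((yA : FN (M * q)) / v1) * ∏ i ∈ Finset.Ioo 0 q, w i) ^ n) := by
    have h1 := (hP.symm.trans hQ).mul
      (Sim.refl (A := A) (s := ι ((∏ i ∈ Finset.Ioo 0 q, w i) ^ n))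
        ((map_ne_zero _).2 (pow_ne_zero _ hW0)))
    rw [← map_mul, div_mul_cancel₀ _ (pow_ne_zero _ hW0), map_pow ι (∏ i ∈ Finset.Ioo 0 q, w i),
      ← mul_pow, ← map_mul] at h1
    exact h1
  rw [← KV.mk_pow]
  refine mk_mem_KEmb hn ι (fun c => ?_) (u ^ (q - 1))
    (a2 M q ((yA : FN (M * q)) / v1) * ∏ i ∈ Finset.Ioo 0 q, w i) ?_
  · rw [hι.map_const, algebraMap_eq_C]
  · exact hfin

end Mid

end Fermat.Agent.S36.StepA
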