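import Fermat.Agent.S36.StepA.Main
import Fermat.Agent.S36.StepA.Hor
import Fermat.Agent.S36.E.Contract

/-!
# S36, STEP-A : final form

`x ∈ V_m(FN (M q²))` fixed by inertia with `α_* x = β_* x = 0`  ⟹  `((q - 1) D) • x ∈ K_all`
(`D = q + 1` the degree of the horizontal components over their quotient by inertia).
-/

set_option autoImplicit false

noncomputable section

namespace Fermat.Agent.S36.StepA

open AlgebraicCurve ModularCurve Fermat.Agent.S24 Fermat.Agent.GAL Fermat.Agent.GAL.RED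
  Fermat.Agent.GAL.Hecke Fermat.Agent.DR.Abs Fermat.Agent.Lib.RR Fermat.Agent.S36.Abs
  Fermat.Agent.S36.Norm Fermat.Agent.DR Fermat.Agent.S36.E IntermediateField

variable {A : ValuationSubring Kbar} {M q : ℕ} [NeZero M] [NeZero q]
  {S J J' : Type*} [Fintype S] [Fintype J] [Fintype J']
  {Fb : Comp S J' → Type*} [∀ i, Field (Fb i)] [∀ i, Algebra (kk A) (Fb i)]
  [∀ i, Lib.RR.IsFF (kk A) (Fb i)]

/-- a class of `KEmb A φ m` is trivial at every reduction which is compatible with `φ`. -/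
theorem mem_Kat_of_mem_KEmb {N m : ℕ} [NeZero N] {ι : Type*} {Fb : ι → Type*} [∀ i, Field (Fb i)]
    [∀ i, Algebra (kk A) (Fb i)] {T : MultiRed Kbar (FN N) (kk A) Fb} {i : ι}
    {φ : FN N →+* LaurentSeries Kbar} (hφ : ∀ f, IsOne A (φ f) → (T.R i).red f = 1)
    {x : KV Kbar (FN N) m} (hx : x ∈ KEmb A φ m) : x ∈ Kat T m i := by
  obtain ⟨f, hf, h1⟩ := hx
  exact ⟨f, hf, hφ _ h1⟩

/-- **STEP-A.** -/
theorem mem_Kall_of_new (hq : q.Prime) (hqM : ¬ q ∣ M) (hA : A.LiesOverPrime q) {m : ℕ}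
    (hm : (m : kk A) ≠ 0) {T : MultiRed Kbar (FN (M * q * q)) (kk A) Fb} {x0 : FN (M * q * q)}
    {N : NodeData (kk A) Fb (Nd S J)} {a₀ : ℕ} (h : IsPreNodal T x0 N a₀) (hsc : HasScales T)
    {μ : J → J'} (hN : Shape μ N) {W : FN (M * q * q) ≃ₐ[Kbar] FN (M * q * q)} (hW : IsW2 M q W)
    (hinf : ∀ f : FN (M * q * q), IsOne A (f : LaurentSeries Kbar) → (T.R .inf).red f = 1)
    (hzero : ∀ f : FN (M * q * q), IsOne A ((W f : FN (M * q * q)) : LaurentSeries Kbar) →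
      (T.R .zero).red f = 1)
    (hmid : ∀ j, ∃ (ζ : Kbar) (hζ : IsPrimitiveRoot ζ q)
      (ι : FN (M * q * q) →+* LaurentSeries Kbar), IsMid M q ζ (hζ.ne_zero hq.ne_zero) ι ∧
        ∀ f, IsOne A (ι f) → (T.R (.mid j)).red f = 1)
    (D : ℕ) (hhor : ∀ e : S, ∃ t : Fb (.hor e), Transcendental (kk A) t ∧
      ∃ (_ : FiniteDimensional (kk A)⟮t⟯ (Fb (.hor e))) (_ : IsGalois (kk A)⟮t⟯ (Fb (.hor e))),
        Module.finrank (kk A)⟮t⟯ (Fb (.hor e)) ∣ D ∧
        ∀ σ : Fb (.hor e) ≃ₐ[(kk A)⟮t⟯] Fb (.hor e), ∃ τ ∈ A.inertiaSubgroupIn ℚ,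
          ∀ y ∈ (T.R (.hor e)).O,
            (T.R (.hor e)).red (E.gal (M * q * q) τ • y) = σ ((T.R (.hor e)).red y))
    (x : KV Kbar (FN (M * q * q)) m) (hI : ∀ σ ∈ A.inertiaSubgroupIn ℚ, σ • x = x)
    (hα : alphaKV (M * q) q m x = 0) (hβ : betaKV (M * q) q m x = 0) :
    ((q - 1) * D) • x ∈ Kall T m := by
  have hm0 : 0 < m := Nat.pos_of_ne_zero (by rintro rfl; simp at hm)
  have hdvd : q ∣ M * q := Dvd.intro_left M rfl
  -- the big components
  have h1 : x ∈ Kat T m .inf :=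
    mem_Kat_of_mem_KEmb (φ := NormFormula.valN (M * q * q)) hinf (mem_KEmb_inf hq hA hdvd hm0 x hβ)
  have h2 : x ∈ Kat T m .zero :=
    mem_Kat_of_mem_KEmb (φ := (NormFormula.valN (M * q * q)).comp
      (W : FN (M * q * q) →+* FN (M * q * q))) hzero
      (mem_KEmb_zero hq hA hdvd hm0 W (DR.wq M q : FN (M * q) →+* FN (M * q))
        (fun u => normAlong_b2_W hq hqM hW u) x hα)
  have h3 : ∀ j, (q - 1) • x ∈ Kat T m (.mid j) := by
    intro j
    obtain ⟨ζ, hζ, ι, hι, hc⟩ := hmid j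
    exact mem_Kat_of_mem_KEmb hc (mem_KEmb_mid hq hqM hA hm0 hζ hι x hI hα hβ)
  set κ : KV Kbar (FN (M * q * q)) m := (q - 1) • x with hκ
  let J0 : Set (Comp S J') := {i | ∀ e, i ≠ .hor e}
  have hbig : ∀ i ∈ J0, κ ∈ Kat T m i := by
    intro i hi
    cases i with
    | inf => exact (Kat T m .inf).nsmul_mem h1 _
    | zero => exact (Kat T m .zero).nsmul_mem h2 _
    | mid j => exact h3 j
    | hor e => exact absurd rfl (hi e)
  have hi₂ : ∀ n, N.i₂ n ∈ J0 := by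
    intro n e
    cases n with
    | inf e' => rw [hN.inf₂]; exact fun h => by cases h
    | zero e' => rw [hN.zero₂]; exact fun h => by cases h
    | mid e' j => rw [hN.mid₂]; exact fun h => by cases h
  have hhor' : ∀ e, D • κ ∈ Kat T m (.hor e) := by
    intro e
    obtain ⟨t, ht, hfd, hgal, ⟨c, hc⟩, hσ⟩ := hhor e
    have := nsmul_mem_Kat_of_invariant h hsc hm (.hor e) J0 (fun n _ => hi₂ n)
      (fun n hn => absurd hn (hi₂ n e)) κ (mem_Ksub.2 hbig) t ht (fun σ => by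
        obtain ⟨τ, hτ, h5⟩ := hσ σ
        refine ⟨E.gal (M * q * q) τ, ?_, h5⟩
        have h6 : τ • κ = κ := by rw [hκ, smul_comm, hI τ hτ]
        exact h6)
    have e1 : D • κ = c • (Module.finrank (kk A)⟮t⟯ (Fb (.hor e)) • κ) := by
      rw [hc]; exact mul_nsmul κ _ c
    rw [e1]
    exact (Kat T m _).nsmul_mem this _
  have e2 : ((q - 1) * D) • x = D • κ := mul_nsmul x (q - 1) D
  rw [e2, mem_Kall_iff_forall h.sep hsc hm0]
  intro i
  by_cases hi : i ∈ J0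
  · exact (Kat T m i).nsmul_mem (hbig i hi) D
  · have : ∃ e, i = .hor e := by
      by_contra hcon
      exact hi fun e he => hcon ⟨e, he⟩
    obtain ⟨e, rfl⟩ := this
    exact hhor' e

/-- **The field `stepA` of `E.EContract`** from the compatibility of the stable fibre `D` with the series
embeddings (`C_∞`, `C_0`, `MID_j`) and with the action of inertia on the `H_e`. -/
theorem stepA_of_EData (hq : q.Prime) (hqM : ¬ q ∣ M) (hA : A.LiesOverPrime q) (D : EData A M q)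
    (hsc : HasScales D.T) {W : FN (M * q * q) ≃ₐ[Kbar] FN (M * q * q)} (hW : IsW2 M q W)
    (hinf : ∀ f : FN (M * q * q), IsOne A (f : LaurentSeries Kbar) → (D.T.R .inf).red f = 1)
    (hzero : ∀ f : FN (M * q * q), IsOne A ((W f : FN (M * q * q)) : LaurentSeries Kbar) →
      (D.T.R .zero).red f = 1)
    (hmid : ∀ j, ∃ (ζ : Kbar) (hζ : IsPrimitiveRoot ζ q)
      (ι : FN (M * q * q) →+* LaurentSeries Kbar), IsMid M q ζ (hζ.ne_zero hq.ne_zero) ι ∧
        ∀ f, IsOne A (ι f) → (D.T.R (.mid j)).red f = 1)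
    (d : ℕ) (hhor : ∀ e : D.SS, ∃ t : D.Fb (.hor e), Transcendental (kk A) t ∧
      ∃ (_ : FiniteDimensional (kk A)⟮t⟯ (D.Fb (.hor e))) (_ : IsGalois (kk A)⟮t⟯ (D.Fb (.hor e))),
        Module.finrank (kk A)⟮t⟯ (D.Fb (.hor e)) ∣ d ∧
        ∀ σ : D.Fb (.hor e) ≃ₐ[(kk A)⟮t⟯] D.Fb (.hor e), ∃ τ ∈ A.inertiaSubgroupIn ℚ,
          ∀ y ∈ (D.T.R (.hor e)).O,
            (D.T.R (.hor e)).red (E.gal (M * q * q) τ • y) = σ ((D.T.R (.hor e)).red y)) :
    ∀ (m : ℕ), (m : kk A) ≠ 0 → ∀ κ : KV Kbar (FN (M * q * q)) m,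
      (∀ σ ∈ A.inertiaSubgroupIn ℚ, σ • κ = κ) → alphaKV (M * q) q m κ = 0 →
        betaKV (M * q) q m κ = 0 → ((q - 1) * d) • κ ∈ Kall D.T m :=
  fun _ hm κ hI hα hβ =>
    mem_Kall_of_new hq hqM hA hm D.nodal hsc D.shape hW hinf hzero hmid d hhor κ hI hα hβ

end Fermat.Agent.S36.StepA
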